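/-
Short Weierstrass curves: an equation criterion for points of order 5.
-/
import Mathlib.AlgebraicGeometry.EllipticCurve.Affine.Point
import Mathlib.AlgebraicGeometry.EllipticCurve.NormalForms
import Mathlib.Tactic.FieldSimp
import Mathlib.Tactic.LinearCombination

set_option autoImplicit false

namespace Fermat.Agent.Switch

open WeierstrassCurve WeierstrassCurve.Affine

section ring

variable {R : Type*} [CommRing R]

/-- The curve `y² = x³ + A x + B`. -/
def short (A B : R) : WeierstrassCurve R := ⟨0, 0, 0, A, B⟩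

instance (A B : R) : (short A B).IsShortNF := ⟨rfl, rfl, rfl⟩

instance instIsShortNFMap {S : Type*} [CommRing S] (f : R →+* S) (W : WeierstrassCurve R)
    [W.IsShortNF] : (W.map f).IsShortNF :=
  ⟨by simp [W.a₁_of_isShortNF], by simp [W.a₂_of_isShortNF], by simp [W.a₃_of_isShortNF]⟩

instance instIsShortNFBaseChange {S : Type*} [CommRing S] [Algebra R S] (W : WeierstrassCurve R)
    [W.IsShortNF] : (W.baseChange S).IsShortNF :=
  inferInstanceAs (W.map (algebraMap R S)).IsShortNF

/-- Numerator of the `x`-coordinate of `2P` on `y² = x³ + A x + B`. -/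
def dupNum (A B x : R) : R := x ^ 4 - 2 * A * x ^ 2 - 8 * B * x + A ^ 2

/-- Denominator of the `x`-coordinate of `2P` on `y² = x³ + A x + B`. -/
def dupDen (A B x : R) : R := 4 * (x ^ 3 + A * x + B)

/-- `x` and `x'` are the `x`-coordinates of `P` and `2P` for a point `P` of order `5`. -/
def IsFivePair (A B x x' : R) : Prop :=
  x' * dupDen A B x = dupNum A B x ∧ x * dupDen A B x' = dupNum A B x' ∧ x' ≠ x

variable (W : WeierstrassCurve.Affine R) [W.IsShortNF]

theorem equation_iff_short (x y : R) :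
    W.Equation x y ↔ y ^ 2 = x ^ 3 + W.a₄ * x + W.a₆ := by
  rw [equation_iff, W.a₁_of_isShortNF, W.a₂_of_isShortNF, W.a₃_of_isShortNF]
  simp

theorem negY_short (x y : R) : W.negY x y = -y := by
  simp [negY, W.a₁_of_isShortNF, W.a₃_of_isShortNF]

theorem nonsingular_of_sq_eq {x y : R} (hΔ : W.Δ ≠ 0) (h : y ^ 2 = x ^ 3 + W.a₄ * x + W.a₆) :
    W.Nonsingular x y :=
  (W.equation_iff_nonsingular_of_Δ_ne_zero hΔ).1 ((equation_iff_short W x y).2 h)

theorem sq_eq_of_nonsingular {x y : R} (h : W.Nonsingular x y) :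
    y ^ 2 = x ^ 3 + W.a₄ * x + W.a₆ :=
  (equation_iff_short W x y).1 h.1

end ring

section field

variable {K : Type*} [Field K] [DecidableEq K] [CharZero K] {W : WeierstrassCurve.Affine K}
  [W.IsShortNF]

omit [DecidableEq K] [CharZero K] in
theorem three_mul_sq_add_ne_zero {x : K} (h : W.Nonsingular x 0) : 3 * x ^ 2 + W.a₄ ≠ 0 := by
  have h2 := ((nonsingular_iff' ..).1 h).2
  rw [W.a₁_of_isShortNF, W.a₂_of_isShortNF, W.a₃_of_isShortNF] at h2
  rcases h2 with h2 | h2
  · intro h0
    apply h2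
    linear_combination -h0
  · simp at h2

omit [DecidableEq K] [CharZero K] in
theorem y_ne_zero_of_dup {x y x' : K} (h : W.Nonsingular x y)
    (he : x' * dupDen W.a₄ W.a₆ x = dupNum W.a₄ W.a₆ x) : y ≠ 0 := by
  rintro rfl
  have hy := sq_eq_of_nonsingular W h
  apply three_mul_sq_add_ne_zero h
  apply pow_eq_zero_iff (two_ne_zero : (2 : ℕ) ≠ 0) |>.1
  unfold dupNum dupDen at he
  linear_combination -he + (4 * x' + 8 * x) * (-hy)

omit [DecidableEq K] in
theorem ne_negY {x y : K} (hy : y ≠ 0) : y ≠ W.negY x y := by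
  rw [negY_short]
  intro h
  exact hy (mul_left_cancel₀ ((two_ne_zero : (2 : K) ≠ 0)) (by linear_combination h))

theorem add_self_x {x y : K} (h : W.Nonsingular x y) (hy : y ≠ 0) :
    ∃ x' y' h', Point.some x y h + Point.some x y h = Point.some x' y' h' ∧
      x' * dupDen W.a₄ W.a₆ x = dupNum W.a₄ W.a₆ x := by
  refine ⟨_, _, _, Point.add_self_of_Y_ne (ne_negY hy), ?_⟩
  rw [slope_of_Y_ne rfl (ne_negY hy), negY_short]
  simp only [addX, W.a₁_of_isShortNF, W.a₂_of_isShortNF]
  have e := sq_eq_of_nonsingular W h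
  have h2 : (2 : K) ≠ 0 := two_ne_zero
  have h4 : (4 : K) ≠ 0 := by rw [show (4 : K) = 2 * 2 by norm_num]; exact mul_ne_zero h2 h2
  unfold dupDen dupNum
  rw [show x ^ 3 + W.a₄ * x + W.a₆ = y ^ 2 from e.symm]
  field_simp
  linear_combination (-32 * x) * e

theorem five_nsmul_some_eq_zero_iff {x y : K} (h : W.Nonsingular x y) :
    5 • Point.some x y h = 0 ↔ ∃ x', IsFivePair W.a₄ W.a₆ x x' := by
  set P := Point.some x y h with hP
  constructor
  · intro h5
    have hy : y ≠ 0 := by
      rintro rfl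
      have h2 : P + P = 0 := Point.add_self_of_Y_eq (by rw [negY_short, neg_zero])
      apply Point.some_ne_zero h
      calc P = 5 • P - 2 • (P + P) := by abel
        _ = 0 := by rw [h5, h2, smul_zero, sub_zero]
    obtain ⟨x', y', h', hadd, he⟩ := add_self_x h hy
    have hy' : y' ≠ 0 := by
      rintro rfl
      have h2 : (P + P) + (P + P) = 0 := by
        rw [hP, hadd]; exact Point.add_self_of_Y_eq (by rw [negY_short, neg_zero])
      apply Point.some_ne_zero h
      calc P = 5 • P - ((P + P) + (P + P)) := by abel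
        _ = 0 := by rw [h5, h2, sub_zero]
    obtain ⟨x'', y'', h'', hadd', he'⟩ := add_self_x h' hy'
    have h4 : Point.some x'' y'' h'' = -P := by
      rw [← hadd', ← hadd, ← hP]
      calc P + P + (P + P) = 5 • P - P := by abel
        _ = -P := by rw [h5, zero_sub]
    have hx'' : x'' = x := (Point.X_eq_iff).2 (Or.inr h4)
    refine ⟨x', he, hx'' ▸ he', fun hxx => ?_⟩
    rcases (Point.X_eq_iff (h₁ := h') (h₂ := h)).1 hxx with e | e
    · rw [← hadd, ← hP, add_eq_left] at e
      exact Point.some_ne_zero h e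
    · rw [← hadd, ← hP] at e
      apply Point.some_ne_zero h
      have h3 : P + P + P = 0 := by rw [e, neg_add_cancel]
      calc P = 2 • (P + P + P) - 5 • P := by abel
        _ = 0 := by rw [h3, h5, smul_zero, sub_zero]
  · rintro ⟨x', he, he', hne⟩
    have hy : y ≠ 0 := y_ne_zero_of_dup h he
    obtain ⟨x₁, y₁, h₁, hadd, he₁⟩ := add_self_x h hy
    have hd : dupDen W.a₄ W.a₆ x ≠ 0 := by
      unfold dupDen
      rw [← sq_eq_of_nonsingular W h, show (4 : K) = 2 * 2 by norm_num]
      exact mul_ne_zero (mul_ne_zero two_ne_zero two_ne_zero) (pow_ne_zero _ hy)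
    obtain rfl : x₁ = x' := mul_right_cancel₀ hd (he₁.trans he.symm)
    have hy₁ : y₁ ≠ 0 := y_ne_zero_of_dup h₁ he'
    obtain ⟨x₂, y₂, h₂, hadd₁, he₂⟩ := add_self_x h₁ hy₁
    have hd₁ : dupDen W.a₄ W.a₆ x₁ ≠ 0 := by
      unfold dupDen
      rw [← sq_eq_of_nonsingular W h₁, show (4 : K) = 2 * 2 by norm_num]
      exact mul_ne_zero (mul_ne_zero two_ne_zero two_ne_zero) (pow_ne_zero _ hy₁)
    obtain rfl : x₂ = x := mul_right_cancel₀ hd₁ (he₂.trans he'.symm)
    rcases (Point.X_eq_iff (h₁ := h₂) (h₂ := h)).1 rfl with e | e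
    · exfalso
      have h3 : P + P = -P := by
        rw [← hadd₁, ← hadd, ← hP] at e
        calc P + P = (P + P + (P + P)) - P - P := by abel
          _ = -P := by rw [e]; abel
      rw [hP, hadd] at h3
      exact hne ((Point.X_eq_iff (h₁ := h₁) (h₂ := h)).2 (Or.inr h3))
    · rw [← hadd₁, ← hadd, ← hP] at e
      calc 5 • P = (P + P + (P + P)) + P := by abel
        _ = 0 := by rw [e, neg_add_cancel]

end field

end Fermat.Agent.Switch
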