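/-
The change of coordinates `(x, y) ↦ (μ² (36 x + 3 b₂), 108 μ³ (2 y + a₁ x + a₃))` to the short model
`y² = x³ - 27 μ⁴ c₄ x - 54 μ⁶ c₆`, as an equivariant isomorphism of groups of points.
-/
import Fermat.Agent.Switch.Short
import Fermat.Prelude.Def_FLTPrelim_GaloisRep

set_option autoImplicit false

namespace Fermat.Agent.Switch

open WeierstrassCurve WeierstrassCurve.Affine

section coords

variable {R : Type*} [CommRing R]

/-- New `x`-coordinate. -/
def modelX (W : WeierstrassCurve.Affine R) (μ x : R) : R := μ ^ 2 * (36 * x + 3 * W.b₂)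

/-- New `y`-coordinate. -/
def modelY (W : WeierstrassCurve.Affine R) (μ x y : R) : R :=
  108 * μ ^ 3 * (2 * y + W.a₁ * x + W.a₃)

theorem modelY_negY (W : WeierstrassCurve.Affine R) (μ x y : R) :
    modelY W μ x (W.negY x y) = -modelY W μ x y := by
  simp only [modelY, negY]; ring

end coords

/-- `S` is the short model of `W` scaled by `μ`. -/
structure IsModel {R : Type*} [CommRing R] (W S : WeierstrassCurve.Affine R) (μ : R) : Prop where
  a₁ : S.a₁ = 0
  a₂ : S.a₂ = 0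
  a₃ : S.a₃ = 0
  a₄ : S.a₄ = -27 * μ ^ 4 * W.c₄
  a₆ : S.a₆ = -54 * μ ^ 6 * W.c₆

theorem IsModel.baseChange {F L : Type*} [Field F] [Field L] [Algebra F L]
    {W S : WeierstrassCurve.Affine F} {μ : F} (h : IsModel W S μ) :
    IsModel (W⁄L) (S⁄L) (algebraMap F L μ) := by
  have e1 : (W⁄L).c₄ = algebraMap F L W.c₄ := WeierstrassCurve.map_c₄ ..
  have e2 : (W⁄L).c₆ = algebraMap F L W.c₆ := WeierstrassCurve.map_c₆ ..
  refine ⟨?_, ?_, ?_, ?_, ?_⟩
  · change algebraMap F L S.a₁ = 0; rw [h.a₁, map_zero]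
  · change algebraMap F L S.a₂ = 0; rw [h.a₂, map_zero]
  · change algebraMap F L S.a₃ = 0; rw [h.a₃, map_zero]
  · change algebraMap F L S.a₄ = _; simp [h.a₄, e1, map_ofNat]
  · change algebraMap F L S.a₆ = _; simp [h.a₆, e2, map_ofNat]

theorem IsModel.Δ_eq {R : Type*} [CommRing R] {W S : WeierstrassCurve.Affine R} {μ : R}
    (h : IsModel W S μ) : S.Δ = 6 ^ 12 * μ ^ 12 * W.Δ := by
  haveI : S.IsShortNF := ⟨h.a₁, h.a₂, h.a₃⟩
  rw [Δ_of_isShortNF, h.a₄, h.a₆]
  have := W.c_relation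
  linear_combination (-1259712 * μ ^ 12) * this

section points

variable {K : Type*} [Field K] [CharZero K] {W S : WeierstrassCurve.Affine K} {μ : K}

theorem IsModel.nonsingular (h : IsModel W S μ) (hμ : μ ≠ 0) (hΔ : W.Δ ≠ 0) (x y : K) :
    S.Nonsingular (modelX W μ x) (modelY W μ x y) ↔ W.Nonsingular x y := by
  have hS : S.Δ ≠ 0 := by
    rw [h.Δ_eq]; exact mul_ne_zero (mul_ne_zero (by norm_num) (pow_ne_zero _ hμ)) hΔ
  rw [← equation_iff_nonsingular_of_Δ_ne_zero hS, ← equation_iff_nonsingular_of_Δ_ne_zero hΔ,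
    equation_iff, equation_iff, h.a₁, h.a₂, h.a₃, h.a₄, h.a₆]
  simp only [modelX, modelY, b₂, b₄, b₆, c₄, c₆]
  constructor
  · intro e
    have hk : (46656 : K) * μ ^ 6 ≠ 0 := mul_ne_zero (by norm_num) (pow_ne_zero _ hμ)
    apply mul_left_cancel₀ hk
    linear_combination e
  · intro e
    linear_combination (46656 * μ ^ 6) * e

variable [DecidableEq K]

theorem IsModel.slope (h : IsModel W S μ) (hμ : μ ≠ 0) {x₁ x₂ y₁ y₂ : K}
    (h₁ : W.Equation x₁ y₁) (h₂ : W.Equation x₂ y₂)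
    (hxy : ¬(x₁ = x₂ ∧ y₁ = W.negY x₂ y₂)) :
    S.slope (modelX W μ x₁) (modelX W μ x₂) (modelY W μ x₁ y₁) (modelY W μ x₂ y₂) =
      μ * (6 * W.slope x₁ x₂ y₁ y₂ + 3 * W.a₁) := by
  haveI : S.IsShortNF := ⟨h.a₁, h.a₂, h.a₃⟩
  by_cases hx : x₁ = x₂
  · subst hx
    have hy : y₁ ≠ W.negY x₁ y₂ := fun e => hxy ⟨rfl, e⟩
    obtain rfl : y₁ = y₂ := Y_eq_of_Y_ne h₁ h₂ rfl hy
    have hd : y₁ - W.negY x₁ y₁ ≠ 0 := sub_ne_zero.mpr hy
    have hd2 : 2 * y₁ + W.a₁ * x₁ + W.a₃ ≠ 0 := by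
      intro e; apply hd; simp only [negY]; linear_combination e
    have hY : modelY W μ x₁ y₁ ≠ 0 :=
      mul_ne_zero (mul_ne_zero (by norm_num) (pow_ne_zero _ hμ)) hd2
    rw [slope_of_Y_ne rfl hy, slope_of_Y_ne rfl (ne_negY hY), negY_short, h.a₁, h.a₂, h.a₄,
      show y₁ - W.negY x₁ y₁ = 2 * y₁ + W.a₁ * x₁ + W.a₃ by simp only [negY]; ring]
    obtain ⟨l, hl⟩ : ∃ l, l = (3 * x₁ ^ 2 + 2 * W.a₂ * x₁ + W.a₄ - W.a₁ * y₁) /
      (2 * y₁ + W.a₁ * x₁ + W.a₃) := ⟨_, rfl⟩
    rw [← hl]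
    rw [eq_div_iff hd2] at hl
    have hY2 : modelY W μ x₁ y₁ - -modelY W μ x₁ y₁ ≠ 0 := by
      rw [sub_neg_eq_add, ← two_mul]; exact mul_ne_zero two_ne_zero hY
    rw [div_eq_iff hY2]
    simp only [modelX, modelY, b₂, b₄, c₄]
    linear_combination (-1296 * μ ^ 4) * hl
  · have hx' : modelX W μ x₁ ≠ modelX W μ x₂ := by
      intro e; apply hx
      simp only [modelX] at e
      have := mul_left_cancel₀ (pow_ne_zero 2 hμ) e
      linear_combination this / 36
    rw [slope_of_X_ne hx, slope_of_X_ne hx']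
    have hd : x₁ - x₂ ≠ 0 := sub_ne_zero.mpr hx
    simp only [modelX, modelY]
    rw [show μ ^ 2 * (36 * x₁ + 3 * W.b₂) - μ ^ 2 * (36 * x₂ + 3 * W.b₂) =
      36 * μ ^ 2 * (x₁ - x₂) by ring]
    field_simp
    ring

variable (h : IsModel W S μ) (hμ : μ ≠ 0) (hΔ : W.Δ ≠ 0)

/-- The map on points to the short model. -/
def IsModel.pointMap : W.Point → S.Point
  | 0 => 0
  | .some x y hxy => .some (modelX W μ x) (modelY W μ x y) ((h.nonsingular hμ hΔ x y).2 hxy)

theorem IsModel.pointMap_some {x y : K} (hxy : W.Nonsingular x y) :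
    h.pointMap hμ hΔ (.some x y hxy) =
      .some (modelX W μ x) (modelY W μ x y) ((h.nonsingular hμ hΔ x y).2 hxy) := rfl

theorem IsModel.pointMap_add (P Q : W.Point) :
    h.pointMap hμ hΔ (P + Q) = h.pointMap hμ hΔ P + h.pointMap hμ hΔ Q := by
  haveI : S.IsShortNF := ⟨h.a₁, h.a₂, h.a₃⟩
  rcases P with _ | ⟨x₁, y₁, h₁⟩
  · rfl
  rcases Q with _ | ⟨x₂, y₂, h₂⟩
  · rfl
  by_cases hxy : x₁ = x₂ ∧ y₁ = W.negY x₂ y₂
  · rw [Point.add_of_Y_eq hxy.1 hxy.2]
    refine (Point.add_of_Y_eq (by rw [hxy.1]) ?_).symm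
    rw [negY_short, hxy.1, hxy.2, modelY_negY]
  · have hxy' : ¬(modelX W μ x₁ = modelX W μ x₂ ∧
        modelY W μ x₁ y₁ = S.negY (modelX W μ x₂) (modelY W μ x₂ y₂)) := by
      rintro ⟨e₁, e₂⟩
      simp only [modelX] at e₁
      obtain rfl : x₁ = x₂ := by
        have := mul_left_cancel₀ (pow_ne_zero 2 hμ) e₁
        linear_combination this / 36
      refine hxy ⟨rfl, ?_⟩
      rw [negY_short, ← modelY_negY] at e₂
      simp only [modelY] at e₂
      have h108 : (108 : K) * μ ^ 3 ≠ 0 := mul_ne_zero (by norm_num) (pow_ne_zero _ hμ)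
      have := mul_left_cancel₀ h108 e₂
      linear_combination this / 2
    rw [Point.add_some hxy]
    simp only [IsModel.pointMap_some]
    rw [Point.add_some hxy']
    simp only [Point.some.injEq, h.slope hμ h₁.1 h₂.1 hxy]
    simp only [addX, addY, negAddY, negY, modelX, modelY, h.a₁, h.a₂, h.a₃, b₂]
    constructor <;> ring

/-- The isomorphism on points to the short model. -/
noncomputable def IsModel.pointEquiv : W.Point ≃+ S.Point :=
  AddEquiv.ofBijective (AddMonoidHom.mk' (h.pointMap hμ hΔ) (h.pointMap_add hμ hΔ)) <| by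
    constructor
    · rintro (_ | ⟨x₁, y₁, h₁⟩) (_ | ⟨x₂, y₂, h₂⟩) e
      · rfl
      · exact (nomatch e)
      · exact (nomatch e)
      · obtain ⟨e₁, e₂⟩ := Point.some.inj e
        simp only [modelX] at e₁
        obtain rfl : x₁ = x₂ := by
          have := mul_left_cancel₀ (pow_ne_zero 2 hμ) e₁
          linear_combination this / 36
        simp only [modelY] at e₂
        obtain rfl : y₁ = y₂ := by
          have h108 : (108 : K) * μ ^ 3 ≠ 0 := mul_ne_zero (by norm_num) (pow_ne_zero _ hμ)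
          have := mul_left_cancel₀ h108 e₂
          linear_combination this / 2
        rfl
    · rintro (_ | ⟨x, y, hxy⟩)
      · exact ⟨0, rfl⟩
      · set x' := (x / μ ^ 2 - 3 * W.b₂) / 36 with hx
        set y' := (y / (108 * μ ^ 3) - W.a₁ * x' - W.a₃) / 2 with hy
        have ex : modelX W μ x' = x := by
          simp only [modelX, hx]; field_simp; ring
        have ey : modelY W μ x' y' = y := by
          simp only [modelY, hy]; field_simp; ring
        refine ⟨.some x' y' ((h.nonsingular hμ hΔ _ _).1 (by rw [ex, ey]; exact hxy)), ?_⟩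
        change Point.some _ _ _ = _
        simp only [Point.some.injEq]
        exact ⟨ex, ey⟩

end points

section galois

variable {F L : Type*} [Field F] [Field L] [CharZero L] [Algebra F L] [DecidableEq L]
  {W S : WeierstrassCurve.Affine F} {μ : F}

/-- The passage to the short model commutes with Galois. -/
theorem IsModel.pointEquiv_smul (h : IsModel W S μ) (hμ : algebraMap F L μ ≠ 0)
    (hΔ : (W⁄L).Δ ≠ 0) (σ : L ≃ₐ[F] L) (P : (W⁄L).Point) :
    h.baseChange.pointEquiv hμ hΔ (σ • P) = σ • h.baseChange.pointEquiv hμ hΔ P := by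
  rcases P with _ | ⟨x, y, hxy⟩
  · rfl
  change Point.some _ _ _ = Point.some _ _ _
  simp only [Point.some.injEq, modelX, modelY]
  have hb : σ (W⁄L).b₂ = (W⁄L).b₂ := by
    rw [show (W⁄L).b₂ = algebraMap F L W.b₂ from WeierstrassCurve.map_b₂ .., σ.commutes]
  have h1 : σ (W⁄L).a₁ = (W⁄L).a₁ := σ.commutes W.a₁
  have h3 : σ (W⁄L).a₃ = (W⁄L).a₃ := σ.commutes W.a₃
  refine ⟨?_, ?_⟩
  · change _ = σ _
    simp only [map_mul, map_add, map_pow, map_ofNat, σ.commutes, hb]
    rfl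
  · change _ = σ _
    simp only [map_mul, map_add, map_pow, map_ofNat, σ.commutes, h1, h3]
    rfl

end galois

end Fermat.Agent.Switch
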