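/-
Klein's icosahedral forms `c4`, `c6`, `D` of degrees 20, 30, 12 in `(u, v)`, written through the
binary forms `k4`, `k6`, `kF` in `(a, b) = (u ^ 5, v ^ 5)`.
-/
import Mathlib.Algebra.CharZero.Defs
import Mathlib.Algebra.Field.Basic
import Mathlib.Algebra.Ring.Hom.Defs
import Mathlib.Data.Nat.Cast.Basic
import Mathlib.Tactic.Ring
import Mathlib.Tactic.LinearCombination
import Mathlib.Tactic.NormNum

set_option autoImplicit false

namespace Fermat.Agent.Switch

section ring

variable {R : Type*} [CommRing R] {S : Type*} [CommRing S] (f : R →+* S)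

/-- The quartic form behind `c4`. -/
def k4 (a b : R) : R := a ^ 4 + 228 * a ^ 3 * b + 494 * a ^ 2 * b ^ 2 - 228 * a * b ^ 3 + b ^ 4

/-- The sextic form behind `c6`. -/
def k6 (a b : R) : R :=
  -(a ^ 6 - 522 * a ^ 5 * b - 10005 * a ^ 4 * b ^ 2 - 10005 * a ^ 2 * b ^ 4 + 522 * a * b ^ 5
    + b ^ 6)

/-- The quadratic form behind `D`. -/
def kF (a b : R) : R := a ^ 2 - 11 * a * b - b ^ 2

/-- `kG = ∂D/∂v` divided by `u`. -/
def kG (a b : R) : R := a ^ 2 - 66 * a * b - 11 * b ^ 2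

/-- `kH = ∂D/∂u` divided by `v`. -/
def kH (a b : R) : R := 11 * a ^ 2 - 66 * a * b - b ^ 2

/-- Klein's form of degree 20. -/
def c4form (u v : R) : R := k4 (u ^ 5) (v ^ 5)

/-- Klein's form of degree 30. -/
def c6form (u v : R) : R := k6 (u ^ 5) (v ^ 5)

/-- Klein's form of degree 12. -/
def dform (u v : R) : R := u * v * kF (u ^ 5) (v ^ 5)

/-- First component of the covariant vector `(-∂D/∂v, ∂D/∂u)`. -/
def xi0 (u v : R) : R := -(u * kG (u ^ 5) (v ^ 5))

/-- Second component of the covariant vector `(-∂D/∂v, ∂D/∂u)`. -/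
def xi1 (u v : R) : R := v * kH (u ^ 5) (v ^ 5)

theorem k4_cube_sub_k6_sq (a b : R) :
    k4 a b ^ 3 - k6 a b ^ 2 = 1728 * (a * b * kF a b ^ 5) := by
  unfold k4 k6 kF; ring

theorem c4form_cube_sub_c6form_sq (u v : R) :
    c4form u v ^ 3 - c6form u v ^ 2 = 1728 * dform u v ^ 5 := by
  unfold c4form c6form dform; rw [k4_cube_sub_k6_sq]; ring

theorem k4_eq_mul_kF_add (a b : R) :
    k4 a b = kF a b * (a ^ 2 + 239 * a * b - b ^ 2) + 3125 * (a ^ 2 * b ^ 2) := by
  unfold k4 kF; ring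

theorem det_eq_mul_dform (u v : R) : u * xi1 u v - v * xi0 u v = 12 * dform u v := by
  unfold xi0 xi1 dform kG kH kF; ring

theorem c4form_mul (l u v : R) : c4form (l * u) (l * v) = l ^ 20 * c4form u v := by
  unfold c4form k4; ring

theorem c6form_mul (l u v : R) : c6form (l * u) (l * v) = l ^ 30 * c6form u v := by
  unfold c6form k6; ring

theorem dform_mul (l u v : R) : dform (l * u) (l * v) = l ^ 12 * dform u v := by
  unfold dform kF; ring

theorem map_k4 (a b : R) : f (k4 a b) = k4 (f a) (f b) := by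
  simp [k4, map_ofNat]

theorem map_k6 (a b : R) : f (k6 a b) = k6 (f a) (f b) := by
  simp [k6, map_ofNat]

theorem map_kF (a b : R) : f (kF a b) = kF (f a) (f b) := by
  simp [kF, map_ofNat]

theorem map_kG (a b : R) : f (kG a b) = kG (f a) (f b) := by
  simp [kG, map_ofNat]

theorem map_kH (a b : R) : f (kH a b) = kH (f a) (f b) := by
  simp [kH, map_ofNat]

theorem map_c4form (u v : R) : f (c4form u v) = c4form (f u) (f v) := by
  simp [c4form, map_k4]

theorem map_c6form (u v : R) : f (c6form u v) = c6form (f u) (f v) := by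
  simp [c6form, map_k6]

theorem map_dform (u v : R) : f (dform u v) = dform (f u) (f v) := by
  simp [dform, map_kF]

theorem map_xi0 (u v : R) : f (xi0 u v) = xi0 (f u) (f v) := by
  simp [xi0, map_kG]

theorem map_xi1 (u v : R) : f (xi1 u v) = xi1 (f u) (f v) := by
  simp [xi1, map_kH]

end ring

section field

variable {K : Type*} [Field K] [CharZero K]

theorem k4_kF_eq_zero {a b : K} (h4 : k4 a b = 0) (hF : kF a b = 0) : a = 0 ∧ b = 0 := by
  have h : (3125 : K) * (a ^ 2 * b ^ 2) = 0 := by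
    rw [← h4, k4_eq_mul_kF_add, hF]; ring
  rcases mul_eq_zero.1 h with h | h
  · norm_num at h
  rcases mul_eq_zero.1 h with h | h
  · rw [pow_eq_zero_iff two_ne_zero] at h
    subst h
    simpa [kF] using hF
  · rw [pow_eq_zero_iff two_ne_zero] at h
    subst h
    simpa [kF] using hF

theorem k4_k6_eq_zero {a b : K} (h4 : k4 a b = 0) (h6 : k6 a b = 0) : a = 0 ∧ b = 0 := by
  have h : (1728 : K) * (a * b * kF a b ^ 5) = 0 := by
    rw [← k4_cube_sub_k6_sq, h4, h6]; ring
  rcases mul_eq_zero.1 h with h | h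
  · norm_num at h
  rcases mul_eq_zero.1 h with h | h
  · rcases mul_eq_zero.1 h with h | h <;> subst h <;> simpa [k4] using h4
  · rw [pow_eq_zero_iff (by norm_num : (5 : ℕ) ≠ 0)] at h
    exact k4_kF_eq_zero h4 h

theorem c4form_dform_eq_zero {u v : K} (h4 : c4form u v = 0) (hD : dform u v = 0) :
    u = 0 ∧ v = 0 := by
  unfold c4form dform at *
  rcases mul_eq_zero.1 hD with h | h
  · rcases mul_eq_zero.1 h with h | h <;> subst h <;> simpa [k4] using h4
  · obtain ⟨ha, hb⟩ := k4_kF_eq_zero h4 h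
    exact ⟨pow_eq_zero_iff (by norm_num : (5 : ℕ) ≠ 0) |>.1 ha,
      pow_eq_zero_iff (by norm_num : (5 : ℕ) ≠ 0) |>.1 hb⟩

theorem c4form_c6form_eq_zero {u v : K} (h4 : c4form u v = 0) (h6 : c6form u v = 0) :
    u = 0 ∧ v = 0 := by
  obtain ⟨ha, hb⟩ := k4_k6_eq_zero (a := u ^ 5) (b := v ^ 5) h4 h6
  exact ⟨pow_eq_zero_iff (by norm_num : (5 : ℕ) ≠ 0) |>.1 ha,
    pow_eq_zero_iff (by norm_num : (5 : ℕ) ≠ 0) |>.1 hb⟩

end field

end Fermat.Agent.Switch
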