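/-
Rationality of the pencil `λ (u, v) + μ (-∂D/∂v, ∂D/∂u)`: if `c4(u, v)` and `c6(u, v)` are
rational then the restrictions of `c4`, `c6`, `D / D(u, v)` to the pencil have rational
coefficients.
-/
import Fermat.Agent.Switch.Klein
import Mathlib.RingTheory.Derivation.MapCoeffs
import Mathlib.Algebra.MvPolynomial.Derivation
import Mathlib.Algebra.Polynomial.Lifts
import Mathlib.RingTheory.Adjoin.Basic
import Mathlib.FieldTheory.IsAlgClosed.AlgebraicClosure
import Mathlib.Algebra.Algebra.Rat

set_option autoImplicit false

noncomputable section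

namespace Fermat.Agent.Switch

section eigen

variable {R : Type*} [CommRing R] (d : Derivation ℤ R R) {u v e : R}

theorem deriv_ofNat (n : ℕ) [n.AtLeastTwo] : d (ofNat(n) : R) = 0 :=
  d.map_natCast n

theorem deriv_c4form_of_eigen (hu : d u = e * u) (hv : d v = e * v) :
    d (c4form u v) = 20 * e * c4form u v := by
  simp only [c4form, k4, map_add, map_sub, Derivation.leibniz, Derivation.leibniz_pow,
    deriv_ofNat, hu, hv, smul_eq_mul, nsmul_eq_mul]
  push_cast
  ring

theorem deriv_c6form_of_eigen (hu : d u = e * u) (hv : d v = e * v) :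
    d (c6form u v) = 30 * e * c6form u v := by
  simp only [c6form, k6, map_neg, map_add, map_sub, Derivation.leibniz, Derivation.leibniz_pow,
    deriv_ofNat, hu, hv, smul_eq_mul, nsmul_eq_mul]
  push_cast
  ring

theorem deriv_dform_of_eigen (hu : d u = e * u) (hv : d v = e * v) :
    d (dform u v) = 12 * e * dform u v := by
  simp only [dform, kF, map_add, map_sub, Derivation.leibniz, Derivation.leibniz_pow,
    deriv_ofNat, hu, hv, smul_eq_mul, nsmul_eq_mul]
  push_cast
  ring

theorem deriv_c4form (hu : d u = xi0 u v) (hv : d v = xi1 u v) :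
    d (c4form u v) = 20 * c6form u v := by
  simp only [c4form, k4, map_add, map_sub, Derivation.leibniz, Derivation.leibniz_pow,
    deriv_ofNat, hu, hv, smul_eq_mul, nsmul_eq_mul]
  push_cast
  unfold xi0 xi1 kG kH c6form k6
  ring

theorem deriv_c6form (hu : d u = xi0 u v) (hv : d v = xi1 u v) :
    d (c6form u v) = 30 * c4form u v ^ 2 := by
  simp only [c6form, k6, map_neg, map_add, map_sub, Derivation.leibniz, Derivation.leibniz_pow,
    deriv_ofNat, hu, hv, smul_eq_mul, nsmul_eq_mul]
  push_cast
  unfold xi0 xi1 kG kH c4form k4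
  ring

theorem deriv_dform (hu : d u = xi0 u v) (hv : d v = xi1 u v) : d (dform u v) = 0 := by
  simp only [dform, kF, map_add, map_sub, Derivation.leibniz, Derivation.leibniz_pow,
    deriv_ofNat, hu, hv, smul_eq_mul, nsmul_eq_mul]
  push_cast
  unfold xi0 xi1 kG kH
  ring

theorem deriv_xi0 (hu : d u = xi0 u v) (hv : d v = xi1 u v) :
    d (xi0 u v) = 11 * c4form u v * u := by
  simp only [xi0, kG, map_neg, map_add, map_sub, Derivation.leibniz, Derivation.leibniz_pow,
    deriv_ofNat, smul_eq_mul, nsmul_eq_mul]
  rw [hu, hv]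
  push_cast
  unfold xi0 xi1 kG kH c4form k4
  ring

theorem deriv_xi1 (hu : d u = xi0 u v) (hv : d v = xi1 u v) :
    d (xi1 u v) = 11 * c4form u v * v := by
  simp only [xi1, kH, map_neg, map_add, map_sub, Derivation.leibniz, Derivation.leibniz_pow,
    deriv_ofNat, smul_eq_mul, nsmul_eq_mul]
  rw [hu, hv]
  push_cast
  unfold xi0 xi1 kG kH c4form k4
  ring

end eigen

open Polynomial in
/-- The generic pencil. -/
def pencilVec {R : Type*} [CommRing R] (u v : R) : R[X] × R[X] :=
  (C u + X * C (xi0 u v), C v + X * C (xi1 u v))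

/-- A form evaluated on the pencil through `(u, v)`. -/
abbrev pencil {R : Type*} [CommRing R] (f : Polynomial R → Polynomial R → Polynomial R) (u v : R) :
    Polynomial R :=
  f (pencilVec u v).1 (pencilVec u v).2

section universalRing

open scoped Differential

/-- `ℚ[u, v]`. -/
abbrev FormRing : Type := MvPolynomial (Fin 2) ℚ

/-- The derivation `-∂D/∂v ∂/∂u + ∂D/∂u ∂/∂v`. -/
def icoDeriv : Derivation ℚ FormRing FormRing :=
  MvPolynomial.mkDerivation ℚ
    ![xi0 (MvPolynomial.X 0) (MvPolynomial.X 1), xi1 (MvPolynomial.X 0) (MvPolynomial.X 1)]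

local instance instDifferentialFormRing : Differential FormRing :=
  ⟨icoDeriv.restrictScalars ℤ⟩

local notation "U" => (MvPolynomial.X 0 : FormRing)
local notation "V" => (MvPolynomial.X 1 : FormRing)

theorem icoDeriv_U : (U)′ = xi0 U V := by
  change icoDeriv U = _
  simp [icoDeriv]

theorem icoDeriv_V : (V)′ = xi1 U V := by
  change icoDeriv V = _
  simp [icoDeriv]

/-- `ℚ[c4, c6]`. -/
def invariantRing : Subalgebra ℚ FormRing := Algebra.adjoin ℚ {c4form U V, c6form U V}

theorem c4_mem_invariantRing : c4form U V ∈ invariantRing :=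
  Algebra.subset_adjoin (Set.mem_insert _ _)

theorem c6_mem_invariantRing : c6form U V ∈ invariantRing :=
  Algebra.subset_adjoin (Set.mem_insert_of_mem _ rfl)

theorem deriv_mem_invariantRing {p : FormRing} (hp : p ∈ invariantRing) :
    p′ ∈ invariantRing := by
  induction hp using Algebra.adjoin_induction with
  | mem x hx =>
    have h20 : ∀ k : ℕ, (k : FormRing) ∈ invariantRing := fun k => natCast_mem _ k
    rcases hx with rfl | hx
    · rw [deriv_c4form _ icoDeriv_U icoDeriv_V]
      exact mul_mem (h20 20) c6_mem_invariantRing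
    · rw [Set.mem_singleton_iff] at hx
      subst hx
      rw [deriv_c6form _ icoDeriv_U icoDeriv_V]
      exact mul_mem (h20 30) (pow_mem c4_mem_invariantRing 2)
  | algebraMap r =>
    have h : (algebraMap ℚ FormRing r)′ = 0 := icoDeriv.map_algebraMap r
    rw [h]
    exact zero_mem _
  | add x y _ _ hx hy => rw [map_add]; exact add_mem hx hy
  | mul x y hx hy hx' hy' =>
    rw [Derivation.leibniz, smul_eq_mul, smul_eq_mul]
    exact add_mem (mul_mem hx hy') (mul_mem hy hx')

open Polynomial

/-- The derivation `δ - (1 - 11 c4 X²) ∂/∂X`, for which the pencil is an eigenvector. -/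
def pencilDeriv : Derivation ℤ FormRing[X] FormRing[X] :=
  Differential.mapCoeffs -
    (1 - C (11 * c4form U V) * X ^ 2) • (derivative' (R := FormRing)).restrictScalars ℤ

theorem pencilDeriv_apply (p : FormRing[X]) :
    pencilDeriv p =
      Differential.mapCoeffs p - (1 - C (11 * c4form U V) * X ^ 2) * derivative p := rfl

theorem pencilDeriv_fst :
    pencilDeriv (pencilVec U V).1 = C (11 * c4form U V) * X * (pencilVec U V).1 := by
  rw [pencilDeriv_apply]
  simp only [pencilVec, map_add, Derivation.leibniz, Differential.mapCoeffs_X,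
    Differential.mapCoeffs_C, derivative_mul, derivative_X, derivative_C, smul_eq_mul,
    icoDeriv_U, deriv_xi0 _ icoDeriv_U icoDeriv_V]
  simp only [map_mul]
  ring

theorem pencilDeriv_snd :
    pencilDeriv (pencilVec U V).2 = C (11 * c4form U V) * X * (pencilVec U V).2 := by
  rw [pencilDeriv_apply]
  simp only [pencilVec, map_add, Derivation.leibniz, Differential.mapCoeffs_X,
    Differential.mapCoeffs_C, derivative_mul, derivative_X, derivative_C, smul_eq_mul,
    icoDeriv_V, deriv_xi1 _ icoDeriv_U icoDeriv_V]
  simp only [map_mul]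
  ring

/-- A polynomial which is an eigenvector of `pencilDeriv` has its coefficients in any stable
subspace containing its constant coefficient. -/
theorem coeff_mem_of_eigen (S : Submodule ℚ FormRing) (hδ : ∀ p ∈ S, p′ ∈ S)
    (hc : ∀ p ∈ S, c4form U V * p ∈ S) (P : FormRing[X]) (n : ℕ)
    (hP : pencilDeriv P = (n : FormRing[X]) * (C (11 * c4form U V) * X) * P)
    (h0 : P.coeff 0 ∈ S) : ∀ i, P.coeff i ∈ S := by
  have hP' : Differential.mapCoeffs P = derivative P +
      C (11 * c4form U V) * (X * ((n : FormRing[X]) * P - X * derivative P)) := by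
    rw [pencilDeriv_apply, sub_eq_iff_eq_add] at hP
    rw [hP]
    ring
  have key : ∀ i, P.coeff (i + 1) ∈ S ∧ P.coeff i ∈ S := by
    intro i
    induction i with
    | zero =>
      refine ⟨?_, h0⟩
      have h := congrArg (fun q => coeff q 0) hP'
      simp [coeff_derivative] at h
      rw [zero_add, ← h]
      exact hδ _ h0
    | succ i ih =>
      refine ⟨?_, ih.1⟩
      have h := congrArg (fun q => coeff q (i + 1)) hP'
      have hX : (X * derivative P).coeff i = (i : FormRing) * P.coeff i := by
        cases i with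
        | zero => simp
        | succ j =>
          rw [coeff_X_mul, coeff_derivative]
          push_cast
          ring
      have hn : ((n : FormRing[X]) * P).coeff i = (n : FormRing) * P.coeff i := by
        rw [← C_eq_natCast, coeff_C_mul]
      simp only [Differential.coeff_mapCoeffs, coeff_add, coeff_C_mul, coeff_X_mul, coeff_sub,
        coeff_derivative, hn, hX] at h
      have e : P.coeff (i + 2) = ((i + 2 : ℚ)⁻¹) • ((P.coeff (i + 1))′ -
          ((11 * ((n : ℚ) - i)) • (c4form U V * P.coeff i))) := by
        rw [eq_inv_smul_iff₀ (by positivity), MvPolynomial.smul_eq_C_mul,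
          MvPolynomial.smul_eq_C_mul, h]
        simp only [map_add, map_mul, map_sub, map_natCast, map_ofNat, Nat.cast_add, Nat.cast_one]
        ring
      rw [e]
      exact S.smul_mem _ (S.sub_mem (hδ _ ih.1) (S.smul_mem _ (hc _ ih.2)))
  exact fun i => (key i).2

theorem coeff_c4_pencil_mem (i : ℕ) : (pencil c4form U V).coeff i ∈ invariantRing := by
  refine coeff_mem_of_eigen (Subalgebra.toSubmodule invariantRing)
    (fun p hp => deriv_mem_invariantRing hp) (fun p hp => invariantRing.mul_mem c4_mem_invariantRing hp) _ 20 ?_ ?_ i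
  · refine (deriv_c4form_of_eigen pencilDeriv pencilDeriv_fst pencilDeriv_snd).trans ?_
    norm_num
  · rw [pencil, ← constantCoeff_apply, map_c4form]
    simpa [pencilVec] using c4_mem_invariantRing

theorem coeff_c6_pencil_mem (i : ℕ) : (pencil c6form U V).coeff i ∈ invariantRing := by
  refine coeff_mem_of_eigen (Subalgebra.toSubmodule invariantRing)
    (fun p hp => deriv_mem_invariantRing hp) (fun p hp => invariantRing.mul_mem c4_mem_invariantRing hp) _ 30 ?_ ?_ i
  · refine (deriv_c6form_of_eigen pencilDeriv pencilDeriv_fst pencilDeriv_snd).trans ?_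
    norm_num
  · rw [pencil, ← constantCoeff_apply, map_c6form]
    simpa [pencilVec] using c6_mem_invariantRing

/-- `D · ℚ[c4, c6]`. -/
def dMultiples : Submodule ℚ FormRing :=
  (Subalgebra.toSubmodule invariantRing).map (LinearMap.mulLeft ℚ (dform U V))

theorem coeff_d_pencil_mem (i : ℕ) : (pencil dform U V).coeff i ∈ dMultiples := by
  refine coeff_mem_of_eigen dMultiples ?_ ?_ _ 12 ?_ ?_ i
  · rintro _ ⟨p, hp, rfl⟩
    refine ⟨p′, deriv_mem_invariantRing hp, ?_⟩
    simp [Derivation.leibniz, deriv_dform _ icoDeriv_U icoDeriv_V]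
  · rintro _ ⟨p, hp, rfl⟩
    exact ⟨c4form U V * p, invariantRing.mul_mem c4_mem_invariantRing hp, by simp [mul_left_comm]⟩
  · refine (deriv_dform_of_eigen pencilDeriv pencilDeriv_fst pencilDeriv_snd).trans ?_
    norm_num
  · rw [pencil, ← constantCoeff_apply, map_dform]
    exact ⟨1, one_mem invariantRing, by simp [pencilVec]⟩

end universalRing

section specialise

open Polynomial

variable {L : Type*} [Field L] [Algebra ℚ L]

/-- Evaluation of the universal forms. -/
abbrev evalForm (u v : L) : FormRing →ₐ[ℚ] L := MvPolynomial.aeval ![u, v]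

theorem evalForm_forms (u v : L) :
    evalForm u v (c4form (MvPolynomial.X 0) (MvPolynomial.X 1)) = c4form u v ∧
      evalForm u v (c6form (MvPolynomial.X 0) (MvPolynomial.X 1)) = c6form u v ∧
      evalForm u v (dform (MvPolynomial.X 0) (MvPolynomial.X 1)) = dform u v := by
  refine ⟨?_, ?_, ?_⟩
  · exact (map_c4form (evalForm u v : FormRing →+* L) _ _).trans (by simp)
  · exact (map_c6form (evalForm u v : FormRing →+* L) _ _).trans (by simp)
  · exact (map_dform (evalForm u v : FormRing →+* L) _ _).trans (by simp)

theorem evalForm_mem_range {u v : L} (h4 : c4form u v ∈ (algebraMap ℚ L).range)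
    (h6 : c6form u v ∈ (algebraMap ℚ L).range) {p : FormRing} (hp : p ∈ invariantRing) :
    evalForm u v p ∈ (algebraMap ℚ L).range := by
  induction hp using Algebra.adjoin_induction with
  | mem x hx =>
    rcases hx with rfl | hx
    · rw [(evalForm_forms u v).1]; exact h4
    · rw [Set.mem_singleton_iff] at hx
      subst hx
      rw [(evalForm_forms u v).2.1]; exact h6
  | algebraMap r => exact ⟨r, by simp⟩
  | add x y _ _ hx hy => rw [map_add]; exact add_mem hx hy
  | mul x y _ _ hx hy => rw [map_mul]; exact mul_mem hx hy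

theorem map_pencilVec {R S : Type*} [CommRing R] [CommRing S] (f : R →+* S) (u v : R) :
    (pencilVec u v).1.map f = (pencilVec (f u) (f v)).1 ∧
      (pencilVec u v).2.map f = (pencilVec (f u) (f v)).2 := by
  simp only [pencilVec, Polynomial.map_add, Polynomial.map_mul, Polynomial.map_C, Polynomial.map_X]
  simp only [map_xi0, map_xi1, and_self]

theorem map_pencil_evalForm (u v : L) :
    (pencil c4form (MvPolynomial.X 0) (MvPolynomial.X 1)).map (evalForm u v : FormRing →+* L) =
        pencil c4form u v ∧
      (pencil c6form (MvPolynomial.X 0) (MvPolynomial.X 1)).map (evalForm u v : FormRing →+* L) =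
        pencil c6form u v ∧
      (pencil dform (MvPolynomial.X 0) (MvPolynomial.X 1)).map (evalForm u v : FormRing →+* L) =
        pencil dform u v := by
  have h := map_pencilVec (evalForm u v : FormRing →+* L) (MvPolynomial.X 0) (MvPolynomial.X 1)
  simp only [RingHom.coe_coe, MvPolynomial.aeval_X, Matrix.cons_val_zero,
    Matrix.cons_val_one] at h
  simp only [pencil, ← coe_mapRingHom, map_c4form, map_c6form, map_dform]
  simp only [coe_mapRingHom, h, and_self]

/-- The pencil through a point with rational invariants has rational coefficients. -/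
theorem exists_rat_pencil {u v : L} (h4 : c4form u v ∈ (algebraMap ℚ L).range)
    (h6 : c6form u v ∈ (algebraMap ℚ L).range) :
    ∃ P4 P6 PD : ℚ[X], P4.map (algebraMap ℚ L) = pencil c4form u v ∧
      P6.map (algebraMap ℚ L) = pencil c6form u v ∧
      C (dform u v) * PD.map (algebraMap ℚ L) = pencil dform u v := by
  obtain ⟨e4, e6, eD⟩ := map_pencil_evalForm u v
  have m4 : pencil c4form u v ∈ lifts (algebraMap ℚ L) := by
    rw [lifts_iff_coeff_lifts, ← e4]
    exact fun i => by
      rw [coeff_map]; exact evalForm_mem_range h4 h6 (coeff_c4_pencil_mem i)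
  have m6 : pencil c6form u v ∈ lifts (algebraMap ℚ L) := by
    rw [lifts_iff_coeff_lifts, ← e6]
    exact fun i => by
      rw [coeff_map]; exact evalForm_mem_range h4 h6 (coeff_c6_pencil_mem i)
  have mD : ∀ i, ∃ q : ℚ, (pencil dform u v).coeff i = dform u v * algebraMap ℚ L q := by
    intro i
    obtain ⟨p, hp, he⟩ := coeff_d_pencil_mem i
    obtain ⟨q, hq⟩ := evalForm_mem_range h4 h6 hp
    refine ⟨q, ?_⟩
    rw [← eD, coeff_map, ← he, LinearMap.mulLeft_apply, RingHom.coe_coe, map_mul,
      (evalForm_forms u v).2.2, ← hq]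
  choose q hq using mD
  obtain ⟨P4, hP4⟩ := (mem_lifts _).1 m4
  obtain ⟨P6, hP6⟩ := (mem_lifts _).1 m6
  refine ⟨P4, P6, ∑ i ∈ (pencil dform u v).support, monomial i (q i), hP4, hP6, ?_⟩
  rw [Polynomial.map_sum, Finset.mul_sum]
  conv_rhs => rw [(pencil dform u v).as_sum_support]
  exact Finset.sum_congr rfl fun i _ => by rw [map_monomial, C_mul_monomial, ← hq]

end specialise

end Fermat.Agent.Switch
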