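/-
Every pair of invariants with non-zero discriminant is a value of `(c4, c6)`; homogeneous
evaluation of the pencil polynomials.
-/
import Fermat.Agent.Switch.Pencil
import Mathlib.FieldTheory.IsAlgClosed.Basic
import Mathlib.Algebra.Polynomial.Roots
import Mathlib.Tactic.ComputeDegree
import Mathlib.Tactic.FieldSimp

set_option autoImplicit false

noncomputable section

namespace Fermat.Agent.Switch

open Polynomial

section solve

variable {K : Type*} [Field K] [CharZero K] [IsAlgClosed K]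

theorem exists_c4form_c6form_eq {C4 C6 : K} (h : C4 ^ 3 - C6 ^ 2 ≠ 0) :
    ∃ u v : K, c4form u v = C4 ∧ c6form u v = C6 := by
  obtain ⟨r, hr⟩ : ∃ r : K, C6 ^ 2 * k4 r 1 ^ 3 = C4 ^ 3 * k6 r 1 ^ 2 := by
    set p : K[X] := C (C4 ^ 3 - C6 ^ 2) * k4 X 1 ^ 3 - C (C4 ^ 3 * 1728) * (X * 1 * kF X 1 ^ 5)
      with hp
    have hc : p.coeff 12 = C4 ^ 3 - C6 ^ 2 := by
      rw [hp, k4, kF]; compute_degree!
    have hdeg : p.degree ≠ 0 := by
      intro h0
      apply h
      rw [← hc]
      exact coeff_eq_zero_of_degree_lt (by rw [h0]; norm_num)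
    obtain ⟨r, hr⟩ := IsAlgClosed.exists_root p hdeg
    refine ⟨r, ?_⟩
    have := k4_cube_sub_k6_sq r 1
    simp only [IsRoot, hp, eval_sub, eval_mul, eval_C, eval_pow, eval_X, eval_one,
      ← coe_evalRingHom, map_k4, map_kF] at hr
    simp only [coe_evalRingHom, eval_X, eval_one] at hr
    linear_combination -hr + C4 ^ 3 * this
  obtain ⟨b, hb4, hb6⟩ : ∃ b : K, b ^ 4 * k4 r 1 = C4 ∧ b ^ 6 * k6 r 1 = C6 := by
    have hne : ¬(k4 r 1 = 0 ∧ k6 r 1 = 0) := fun h' => one_ne_zero (k4_k6_eq_zero h'.1 h'.2).2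
    by_cases h4 : C4 = 0
    · have h6 : C6 ≠ 0 := fun h6 => h (by rw [h4, h6]; ring)
      have hk4 : k4 r 1 = 0 := by
        have : C6 ^ 2 * k4 r 1 ^ 3 = 0 := by rw [hr, h4]; ring
        simpa [h6] using this
      have hk6 : k6 r 1 ≠ 0 := fun h' => hne ⟨hk4, h'⟩
      obtain ⟨b, hb⟩ := IsAlgClosed.exists_pow_nat_eq (C6 / k6 r 1) (n := 6) (by norm_num)
      exact ⟨b, by rw [hk4, h4, mul_zero], by rw [hb]; field_simp⟩
    · by_cases h6 : C6 = 0
      · have hk6 : k6 r 1 = 0 := by
          have : C4 ^ 3 * k6 r 1 ^ 2 = 0 := by rw [← hr, h6]; ring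
          simpa [h4] using this
        have hk4 : k4 r 1 ≠ 0 := fun h' => hne ⟨h', hk6⟩
        obtain ⟨b, hb⟩ := IsAlgClosed.exists_pow_nat_eq (C4 / k4 r 1) (n := 4) (by norm_num)
        exact ⟨b, by rw [hb]; field_simp, by rw [hk6, h6, mul_zero]⟩
      · have hk4 : k4 r 1 ≠ 0 := by
          intro h'
          have : C4 ^ 3 * k6 r 1 ^ 2 = 0 := by rw [← hr, h']; ring
          exact hne ⟨h', by simpa [h4] using this⟩
        have hk6 : k6 r 1 ≠ 0 := by
          intro h'
          have : C6 ^ 2 * k4 r 1 ^ 3 = 0 := by rw [hr, h']; ring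
          exact hk4 (by simpa [h6] using this)
        obtain ⟨b, hb⟩ := IsAlgClosed.exists_pow_nat_eq (C6 * k4 r 1 / (C4 * k6 r 1)) two_pos
        refine ⟨b, ?_, ?_⟩
        · rw [show b ^ 4 = (b ^ 2) ^ 2 by ring, hb]
          field_simp
          linear_combination hr
        · rw [show b ^ 6 = (b ^ 2) ^ 3 by ring, hb]
          field_simp
          linear_combination hr
  obtain ⟨u, hu⟩ := IsAlgClosed.exists_pow_nat_eq (r * b) (n := 5) (by norm_num)
  obtain ⟨v, hv⟩ := IsAlgClosed.exists_pow_nat_eq b (n := 5) (by norm_num)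
  refine ⟨u, v, ?_, ?_⟩
  · rw [c4form, hu, hv, ← hb4, k4, k4]; ring
  · rw [c6form, hu, hv, ← hb6, k6, k6]; ring

end solve

section degree

variable {R : Type*} [CommRing R] (u v : R)

theorem natDegree_pencil_c4form_le : (pencil c4form u v).natDegree ≤ 20 := by
  simp only [pencil, pencilVec, c4form, k4]
  compute_degree

theorem natDegree_pencil_c6form_le : (pencil c6form u v).natDegree ≤ 30 := by
  simp only [pencil, pencilVec, c6form, k6]
  compute_degree

theorem natDegree_pencil_dform_le : (pencil dform u v).natDegree ≤ 12 := by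
  simp only [pencil, pencilVec, dform, kF]
  compute_degree

end degree

section homogenise

/-- `λ ^ m · p (μ / λ)` as a finite sum. -/
def homEval {R : Type*} [CommRing R] (m : ℕ) (p : R[X]) (l μ : R) : R :=
  ∑ i ∈ Finset.range (m + 1), p.coeff i * μ ^ i * l ^ (m - i)

theorem map_homEval {R S : Type*} [CommRing R] [CommRing S] (f : R →+* S) (m : ℕ) (p : R[X])
    (l μ : R) : f (homEval m p l μ) = homEval m (p.map f) (f l) (f μ) := by
  simp [homEval, coeff_map]

theorem homEval_eq_of_ne_zero {K : Type*} [Field K] {m : ℕ} {p : K[X]} (hp : p.natDegree ≤ m)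
    {l : K} (hl : l ≠ 0) (μ : K) : homEval m p l μ = l ^ m * p.eval (μ / l) := by
  rw [eval_eq_sum_range' (Nat.lt_succ_iff.2 hp), Finset.mul_sum, homEval]
  refine Finset.sum_congr rfl fun i hi => ?_
  have hi' : i ≤ m := Nat.lt_succ_iff.1 (Finset.mem_range.1 hi)
  rw [div_pow, show l ^ m = l ^ (m - i) * l ^ i by rw [← pow_add, Nat.sub_add_cancel hi']]
  field_simp

/-- Homogeneous evaluation of the restriction of a form to a line. -/
theorem homEval_eq {K : Type*} [Field K] [Infinite K] {m : ℕ} (f : ∀ {R : Type _} [CommRing R],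
      R → R → R)
    (hmap : ∀ {R S : Type _} [CommRing R] [CommRing S] (φ : R →+* S) (a b : R),
      φ (f a b) = f (φ a) (φ b))
    (hmul : ∀ {R : Type _} [CommRing R] (c a b : R), f (c * a) (c * b) = c ^ m * f a b)
    (u v : K) {P : K[X]} (c : K)
    (hP : C c * P = pencil (fun a b => f a b) u v) (hdeg : P.natDegree ≤ m) (l μ : K) :
    c * homEval m P l μ = f (l * u + μ * xi0 u v) (l * v + μ * xi1 u v) := by
  let F : K[X] := C c * ∑ i ∈ Finset.range (m + 1), C (P.coeff i * μ ^ i) * X ^ (m - i)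
  let G : K[X] := f (X * C u + C (μ * xi0 u v)) (X * C v + C (μ * xi1 u v))
  have hF : ∀ x, F.eval x = c * homEval m P x μ := fun x => by
    simp [F, homEval, eval_finsetSum]
  have hG : ∀ x, G.eval x = f (x * u + μ * xi0 u v) (x * v + μ * xi1 u v) := fun x => by
    simp only [G]
    rw [← coe_evalRingHom, hmap]
    simp only [coe_evalRingHom, eval_add, eval_mul, eval_C, eval_X]
  have key : F = G := by
    refine eq_of_infinite_eval_eq _ _ (Set.Infinite.mono (s := {x : K | x ≠ 0}) ?_
      (Set.Finite.infinite_compl (Set.finite_singleton (0 : K))))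
    intro x (hx : x ≠ 0)
    change F.eval x = G.eval x
    have e := congrArg (fun q => q.eval (μ / x)) hP
    simp only [eval_mul, eval_C] at e
    rw [← coe_evalRingHom, hmap] at e
    simp only [coe_evalRingHom, pencilVec, eval_add, eval_mul, eval_C, eval_X] at e
    rw [hF, hG, homEval_eq_of_ne_zero hdeg hx, mul_left_comm, e, ← hmul]
    congr 1 <;> field_simp
  rw [← hF, ← hG, key]

end homogenise

end Fermat.Agent.Switch
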