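/-
The rational polynomials `P4`, `P6`, `PD` attached to a curve with invariants `C4`, `C6`.
-/
import Fermat.Agent.Switch.Solve

set_option autoImplicit false

noncomputable section

namespace Fermat.Agent.Switch

open Polynomial

local notation "Qbar" => AlgebraicClosure ℚ

/-- Everything we use about the rational pencil through a point with invariants `C4`, `C6`. -/
structure PencilData (C4 C6 : ℚ) where
  u : Qbar
  v : Qbar
  P4 : ℚ[X]
  P6 : ℚ[X]
  PD : ℚ[X]
  c4_eq : c4form u v = algebraMap ℚ Qbar C4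
  c6_eq : c6form u v = algebraMap ℚ Qbar C6
  d_ne : dform u v ≠ 0
  map4 : P4.map (algebraMap ℚ Qbar) = pencil c4form u v
  map6 : P6.map (algebraMap ℚ Qbar) = pencil c6form u v
  mapD : C (dform u v) * PD.map (algebraMap ℚ Qbar) = pencil dform u v
  deg4 : P4.natDegree ≤ 20
  deg6 : P6.natDegree ≤ 30
  degD : PD.natDegree ≤ 12

theorem exists_pencilData {C4 C6 : ℚ} (h : C4 ^ 3 - C6 ^ 2 ≠ 0) :
    Nonempty (PencilData C4 C6) := by
  obtain ⟨u, v, h4, h6⟩ := exists_c4form_c6form_eq (C4 := algebraMap ℚ Qbar C4)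
    (C6 := algebraMap ℚ Qbar C6) (by rw [← map_pow, ← map_pow, ← map_sub]; exact (_root_.map_ne_zero _).2 h)
  have hd : dform u v ≠ 0 := by
    intro hd
    apply h
    apply (algebraMap ℚ Qbar).injective
    rw [map_sub, map_pow, map_pow, map_zero, ← h4, ← h6, c4form_cube_sub_c6form_sq, hd]
    ring
  obtain ⟨P4, P6, PD, e4, e6, eD⟩ := exists_rat_pencil (L := Qbar) (u := u) (v := v)
    ⟨C4, h4.symm⟩ ⟨C6, h6.symm⟩
  refine ⟨⟨u, v, P4, P6, PD, h4, h6, hd, e4, e6, eD, ?_, ?_, ?_⟩⟩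
  · rw [← natDegree_map (algebraMap ℚ Qbar), e4]; exact natDegree_pencil_c4form_le u v
  · rw [← natDegree_map (algebraMap ℚ Qbar), e6]; exact natDegree_pencil_c6form_le u v
  · rw [← natDegree_map (algebraMap ℚ Qbar), ← natDegree_C_mul hd, eD]
    exact natDegree_pencil_dform_le u v

variable {C4 C6 : ℚ} (d : PencilData C4 C6)

namespace PencilData

/-- The point of the pencil with parameters `(l : m)`. -/
def vec0 (l m : Qbar) : Qbar := l * d.u + m * xi0 d.u d.v

/-- The point of the pencil with parameters `(l : m)`, second coordinate. -/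
def vec1 (l m : Qbar) : Qbar := l * d.v + m * xi1 d.u d.v

theorem c4_homEval (l m : Qbar) :
    homEval 20 (d.P4.map (algebraMap ℚ Qbar)) l m = c4form (d.vec0 l m) (d.vec1 l m) := by
  have h := homEval_eq (m := 20) (fun {R} [CommRing R] a b => c4form a b)
    (fun φ a b => map_c4form φ a b) (fun c a b => c4form_mul c a b) d.u d.v
    (P := d.P4.map (algebraMap ℚ Qbar)) 1 (by rw [C_1, one_mul]; exact d.map4)
    (by rw [natDegree_map]; exact d.deg4) l m
  rwa [one_mul] at h

theorem c6_homEval (l m : Qbar) :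
    homEval 30 (d.P6.map (algebraMap ℚ Qbar)) l m = c6form (d.vec0 l m) (d.vec1 l m) := by
  have h := homEval_eq (m := 30) (fun {R} [CommRing R] a b => c6form a b)
    (fun φ a b => map_c6form φ a b) (fun c a b => c6form_mul c a b) d.u d.v
    (P := d.P6.map (algebraMap ℚ Qbar)) 1 (by rw [C_1, one_mul]; exact d.map6)
    (by rw [natDegree_map]; exact d.deg6) l m
  rwa [one_mul] at h

theorem d_homEval (l m : Qbar) :
    dform d.u d.v * homEval 12 (d.PD.map (algebraMap ℚ Qbar)) l m =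
      dform (d.vec0 l m) (d.vec1 l m) :=
  homEval_eq (m := 12) (fun {R} [CommRing R] a b => dform a b)
    (fun φ a b => map_dform φ a b) (fun c a b => dform_mul c a b) d.u d.v
    (P := d.PD.map (algebraMap ℚ Qbar)) (dform d.u d.v) d.mapD
    (by rw [natDegree_map]; exact d.degD) l m

/-- The pencil only meets the origin at `(0 : 0)`. -/
theorem vec_eq_zero {l m : Qbar} (h0 : d.vec0 l m = 0) (h1 : d.vec1 l m = 0) : l = 0 ∧ m = 0 := by
  have hdet := det_eq_mul_dform d.u d.v
  have h12 : (12 : Qbar) * dform d.u d.v ≠ 0 := mul_ne_zero (by norm_num) d.d_ne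
  have hl : l * (12 * dform d.u d.v) = 0 := by
    rw [← hdet]
    unfold vec0 vec1 at *
    linear_combination xi1 d.u d.v * h0 - xi0 d.u d.v * h1
  have hm : m * (12 * dform d.u d.v) = 0 := by
    rw [← hdet]
    unfold vec0 vec1 at *
    linear_combination d.u * h1 - d.v * h0
  exact ⟨(mul_eq_zero.1 hl).resolve_right h12, (mul_eq_zero.1 hm).resolve_right h12⟩

theorem not_c4_c6 {l m : Qbar} (hlm : l ≠ 0 ∨ m ≠ 0) :
    homEval 20 (d.P4.map (algebraMap ℚ Qbar)) l m ≠ 0 ∨
      homEval 30 (d.P6.map (algebraMap ℚ Qbar)) l m ≠ 0 := by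
  by_contra! h
  rw [c4_homEval, c6_homEval] at h
  obtain ⟨h0, h1⟩ := c4form_c6form_eq_zero h.1 h.2
  obtain ⟨hl, hm⟩ := d.vec_eq_zero h0 h1
  exact hlm.elim (· hl) (· hm)

theorem not_c4_d {l m : Qbar} (hlm : l ≠ 0 ∨ m ≠ 0) :
    homEval 20 (d.P4.map (algebraMap ℚ Qbar)) l m ≠ 0 ∨
      homEval 12 (d.PD.map (algebraMap ℚ Qbar)) l m ≠ 0 := by
  by_contra! h
  have hd := d.d_homEval l m
  rw [h.2, mul_zero] at hd
  rw [c4_homEval] at h
  obtain ⟨h0, h1⟩ := c4form_dform_eq_zero h.1 hd.symm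
  obtain ⟨hl, hm⟩ := d.vec_eq_zero h0 h1
  exact hlm.elim (· hl) (· hm)

theorem coeff_zero4 : d.P4.coeff 0 = C4 := by
  apply (algebraMap ℚ Qbar).injective
  rw [← coeff_map, d.map4, ← constantCoeff_apply, pencil, map_c4form, ← d.c4_eq]
  simp [pencilVec]

theorem coeff_zero6 : d.P6.coeff 0 = C6 := by
  apply (algebraMap ℚ Qbar).injective
  rw [← coeff_map, d.map6, ← constantCoeff_apply, pencil, map_c6form, ← d.c6_eq]
  simp [pencilVec]

theorem coeff_zeroD : d.PD.coeff 0 = 1 := by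
  apply (algebraMap ℚ Qbar).injective
  refine mul_left_cancel₀ d.d_ne ?_
  have h := congrArg (fun q => constantCoeff q) d.mapD
  simp only [map_mul, constantCoeff_apply, coeff_C_zero, coeff_map] at h
  rw [h, ← constantCoeff_apply, pencil, map_dform, map_one, mul_one]
  simp [pencilVec]

/-- `homEval` of a rational polynomial at rational arguments, inside `Q̄`. -/
theorem algebraMap_homEval (m : ℕ) (p : ℚ[X]) (l μ : ℚ) :
    algebraMap ℚ Qbar (homEval m p l μ) =
      homEval m (p.map (algebraMap ℚ Qbar)) (algebraMap ℚ Qbar l) (algebraMap ℚ Qbar μ) :=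
  map_homEval _ m p l μ

theorem dform_pow_five : dform d.u d.v ^ 5 = algebraMap ℚ Qbar ((C4 ^ 3 - C6 ^ 2) / 1728) := by
  have h := c4form_cube_sub_c6form_sq d.u d.v
  rw [d.c4_eq, d.c6_eq] at h
  rw [map_div₀, map_sub, map_pow, map_pow, map_ofNat, h]
  ring

theorem syzygy (l m : ℚ) :
    homEval 20 d.P4 l m ^ 3 - homEval 30 d.P6 l m ^ 2 =
      (C4 ^ 3 - C6 ^ 2) * homEval 12 d.PD l m ^ 5 := by
  apply (algebraMap ℚ Qbar).injective
  have h := c4form_cube_sub_c6form_sq (d.vec0 (algebraMap ℚ Qbar l) (algebraMap ℚ Qbar m))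
    (d.vec1 (algebraMap ℚ Qbar l) (algebraMap ℚ Qbar m))
  rw [← d.c4_homEval, ← d.c6_homEval, ← d.d_homEval, mul_pow, d.dform_pow_five] at h
  simp only [map_sub, map_mul, map_pow, map_div₀, map_ofNat, algebraMap_homEval] at h ⊢
  linear_combination h

end PencilData

end Fermat.Agent.Switch
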