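/-
Specialisation of 5-torsion sections of a short Weierstrass curve over a factorial domain.
-/
import Fermat.Agent.Switch.Short
import Mathlib.RingTheory.Localization.NumDen
import Mathlib.RingTheory.Localization.FractionRing
import Mathlib.RingTheory.IntegralClosure.IntegrallyClosed
import Mathlib.RingTheory.UniqueFactorizationDomain.Basic
import Mathlib.RingTheory.Polynomial.RationalRoot
import Mathlib.RingTheory.Ideal.Quotient.Basic
import Mathlib.Algebra.Module.Torsion.Basic

set_option autoImplicit false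

namespace Fermat.Agent.Switch

open WeierstrassCurve WeierstrassCurve.Affine

section integral

variable {R : Type*} [CommRing R] [IsDomain R] [UniqueFactorizationMonoid R]
  {K : Type*} [Field K] [Algebra R K] [IsFractionRing R K]

/-- A point of order five has no poles: its `x`-coordinate lies in `R`. -/
theorem mem_range_of_five_pair (h15 : IsUnit (15 : R)) {A B : R} {x x' : K}
    (hd : dupDen (algebraMap R K A) (algebraMap R K B) x ≠ 0)
    (h1 : x' * dupDen (algebraMap R K A) (algebraMap R K B) x =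
      dupNum (algebraMap R K A) (algebraMap R K B) x)
    (h2 : x * dupDen (algebraMap R K A) (algebraMap R K B) x' =
      dupNum (algebraMap R K A) (algebraMap R K B) x') :
    x ∈ Set.range (algebraMap R K) := by
  by_cases hu : IsUnit (IsFractionRing.den R x : R)
  · exact IsFractionRing.isInteger_of_isUnit_den hu
  exfalso
  have hxeq : algebraMap R K (IsFractionRing.num R x) /
      algebraMap R K (IsFractionRing.den R x : R) = x :=
    IsFractionRing.mk'_num_den' R x
  set p := IsFractionRing.num R x with hp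
  set q : R := (IsFractionRing.den R x : R) with hq
  have hq0 : q ≠ 0 := nonZeroDivisors.ne_zero (IsFractionRing.den R x).2
  have hq0' : algebraMap R K q ≠ 0 := fun h =>
    hq0 ((IsFractionRing.injective R K) (by rw [h, map_zero]))
  set N : R := p ^ 4 - 2 * A * p ^ 2 * q ^ 2 - 8 * B * p * q ^ 3 + A ^ 2 * q ^ 4 with hN
  set D : R := 4 * (p ^ 3 + A * p * q ^ 2 + B * q ^ 3) with hD
  have e1 : dupDen (algebraMap R K A) (algebraMap R K B) x =
      algebraMap R K D / algebraMap R K q ^ 3 := by
    rw [← hxeq, hD]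
    simp only [dupDen, map_add, map_mul, map_pow, map_ofNat]
    field_simp
  have e2 : dupNum (algebraMap R K A) (algebraMap R K B) x =
      algebraMap R K N / algebraMap R K q ^ 4 := by
    rw [← hxeq, hN]
    simp only [dupNum, map_add, map_sub, map_mul, map_pow, map_ofNat]
    field_simp
  have hD0 : algebraMap R K D ≠ 0 := fun h => hd (by rw [e1, h, zero_div])
  have hx' : x' = algebraMap R K N / (algebraMap R K q * algebraMap R K D) := by
    rw [e1, e2] at h1
    field_simp at h1 ⊢
    linear_combination h1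
  set N' : R := N ^ 4 - 2 * A * N ^ 2 * (q * D) ^ 2 - 8 * B * N * (q * D) ^ 3
    + A ^ 2 * (q * D) ^ 4 with hN'
  set D' : R := 4 * (N ^ 3 + A * N * (q * D) ^ 2 + B * (q * D) ^ 3) with hD'
  have key : p * D * D' = N' := by
    apply IsFractionRing.injective R K
    rw [hx', ← hxeq] at h2
    simp only [dupDen, dupNum] at h2
    simp only [hN', hD', map_add, map_sub, map_mul, map_pow, map_ofNat]
    field_simp at h2 ⊢
    linear_combination h2
  obtain ⟨π, hπ, hπq⟩ := WfDvdMonoid.exists_irreducible_factor hu hq0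
  have hπ' : Prime π := UniqueFactorizationMonoid.irreducible_iff_prime.1 hπ
  let φ := Ideal.Quotient.mk (Ideal.span {π})
  have hφq : φ q = 0 := Ideal.Quotient.eq_zero_iff_mem.2 (Ideal.mem_span_singleton.2 hπq)
  have h15p : φ (15 * p ^ 16) = 0 := by
    have h := congrArg φ key
    simp only [hN', hD', hD, hN, map_add, map_sub, map_mul, map_pow, hφq, map_ofNat] at h
    simp only [map_mul, map_pow, map_ofNat]
    linear_combination h
  rw [Ideal.Quotient.eq_zero_iff_mem, Ideal.mem_span_singleton] at h15p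
  have hπp : π ∣ p := by
    rcases hπ'.dvd_or_dvd h15p with h | h
    · exact absurd (isUnit_of_dvd_unit h h15) hπ'.not_unit
    · exact hπ'.dvd_of_dvd_pow h
  exact hπ'.not_unit (IsFractionRing.num_den_reduced R x hπp hπq)

end integral

section specialise

variable {R : Type*} [CommRing R] {K : Type*} [Field K] [Algebra R K]
  {k : Type*} [Field k] (e : R →+* k)
  (E : WeierstrassCurve.Affine K) (Ek : WeierstrassCurve.Affine k)

open scoped Classical in
/-- Specialisation of a point with coordinates in `R`; other points go to `0`. -/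
noncomputable def spec : E.Point → Ek.Point
  | .zero => 0
  | .some X Y _ =>
    if h : ∃ x y : R, algebraMap R K x = X ∧ algebraMap R K y = Y ∧ Ek.Nonsingular (e x) (e y)
    then .some _ _ h.choose_spec.choose_spec.2.2 else 0

variable [IsDomain R] [IsFractionRing R K]

theorem spec_some {x y : R} (h : E.Nonsingular (algebraMap R K x) (algebraMap R K y))
    (hk : Ek.Nonsingular (e x) (e y)) :
    spec e E Ek (.some _ _ h) = .some _ _ hk := by
  have hex : ∃ x' y' : R, algebraMap R K x' = algebraMap R K x ∧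
      algebraMap R K y' = algebraMap R K y ∧ Ek.Nonsingular (e x') (e y') :=
    ⟨x, y, rfl, rfl, hk⟩
  simp only [spec, dif_pos hex]
  congr 1
  · exact congrArg e (IsFractionRing.injective R K hex.choose_spec.choose_spec.1)
  · exact congrArg e (IsFractionRing.injective R K hex.choose_spec.choose_spec.2.1)

variable [UniqueFactorizationMonoid R] [DecidableEq K] [CharZero K] [E.IsShortNF]
  {A B : R} (h15 : IsUnit (15 : R))
  (h4 : E.a₄ = algebraMap R K A) (h6 : E.a₆ = algebraMap R K B)

include h15 h4 h6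

/-- The affine points killed by five have coordinates in `R`, and so does their double. -/
theorem exists_integral_coords {X Y : K} (h : E.Nonsingular X Y)
    (hP : 5 • Point.some X Y h = 0) :
    ∃ x y x' : R, algebraMap R K x = X ∧ algebraMap R K y = Y ∧
      y ^ 2 = x ^ 3 + A * x + B ∧ IsFivePair A B x x' := by
  have hmem : ∀ {X Y : K} (h : E.Nonsingular X Y), 5 • Point.some X Y h = 0 →
      X ∈ Set.range (algebraMap R K) := by
    intro X Y h hP
    obtain ⟨X', he, he', -⟩ := (five_nsmul_some_eq_zero_iff h).1 hP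
    have hd : dupDen E.a₄ E.a₆ X ≠ 0 := by
      rw [dupDen, ← sq_eq_of_nonsingular E h]
      exact mul_ne_zero (by norm_num : (4 : K) ≠ 0) (pow_ne_zero _ (y_ne_zero_of_dup h he))
    rw [h4, h6] at he he' hd
    exact mem_range_of_five_pair h15 hd he he'
  obtain ⟨x, hx⟩ := hmem h hP
  obtain ⟨X', he, he', hne⟩ := (five_nsmul_some_eq_zero_iff h).1 hP
  have hy : Y ≠ 0 := y_ne_zero_of_dup h he
  obtain ⟨X₂, Y₂, h₂, hadd, he₂⟩ := add_self_x h hy
  have hd : dupDen E.a₄ E.a₆ X ≠ 0 := by
    rw [dupDen, ← sq_eq_of_nonsingular E h]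
    exact mul_ne_zero (by norm_num : (4 : K) ≠ 0) (pow_ne_zero _ hy)
  obtain rfl : X₂ = X' := mul_right_cancel₀ hd (he₂.trans he.symm)
  obtain ⟨x', hx'⟩ := hmem h₂ (by
    rw [← hadd, smul_add, hP, add_zero])
  have hY2 := sq_eq_of_nonsingular E h
  obtain ⟨y, hy'⟩ : Y ∈ Set.range (algebraMap R K) := by
    refine IsIntegrallyClosed.algebraMap_eq_of_integral
      (IsIntegral.of_pow (n := 2) two_pos ?_)
    rw [hY2, h4, h6, ← hx, ← map_pow, ← map_mul, ← map_add, ← map_add]
    exact isIntegral_algebraMap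
  have hinj := IsFractionRing.injective R K
  refine ⟨x, y, x', hx, hy', hinj ?_, hinj ?_, hinj ?_, fun hxx => hne ?_⟩
  · rw [map_pow, hy', hY2, h4, h6, map_add, map_add, map_mul, map_pow, hx]
  · simpa [dupDen, dupNum, h4, h6, hx, hx', map_ofNat] using he
  · simpa [dupDen, dupNum, h4, h6, hx, hx', map_ofNat] using he'
  · rw [← hx, ← hx', hxx]

variable [DecidableEq k] [CharZero k] [Ek.IsShortNF]
  (k4' : Ek.a₄ = e A) (k6' : Ek.a₆ = e B) (hΔ : Ek.Δ ≠ 0)

include k4' k6' hΔ

/-- A non-zero point killed by five specialises to an affine point with non-zero `y`. -/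
theorem exists_spec_some {X Y : K} (h : E.Nonsingular X Y) (hP : 5 • Point.some X Y h = 0) :
    ∃ x y : R, ∃ hk : Ek.Nonsingular (e x) (e y),
      algebraMap R K x = X ∧ algebraMap R K y = Y ∧ e y ≠ 0 ∧
        spec e E Ek (.some X Y h) = .some _ _ hk := by
  obtain ⟨x, y, x', rfl, rfl, hc, he, -, -⟩ := exists_integral_coords E h15 h4 h6 h hP
  have hk : Ek.Nonsingular (e x) (e y) := nonsingular_of_sq_eq Ek hΔ (by
    rw [k4', k6', ← map_pow, hc, map_add, map_add, map_mul, map_pow])
  refine ⟨x, y, hk, rfl, rfl, y_ne_zero_of_dup (x' := e x') hk ?_, spec_some e E Ek h hk⟩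
  have he' := congrArg e he
  simpa [dupDen, dupNum, k4', k6', map_ofNat] using he'

theorem spec_add {P Q : E.Point} (hP : 5 • P = 0) (hQ : 5 • Q = 0) :
    spec e E Ek (P + Q) = spec e E Ek P + spec e E Ek Q := by
  rcases P with _ | ⟨X₁, Y₁, h₁⟩
  · simp only [← Point.zero_def, zero_add]
    change _ = (0 : Ek.Point) + _
    rw [zero_add]
  rcases Q with _ | ⟨X₂, Y₂, h₂⟩
  · simp only [← Point.zero_def, add_zero]
    change _ = _ + (0 : Ek.Point)
    rw [add_zero]
  obtain ⟨x₁, y₁, hk₁, rfl, rfl, hy₁, hs₁⟩ := exists_spec_some e E Ek h15 h4 h6 k4' k6' hΔ h₁ hP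
  obtain ⟨x₂, y₂, hk₂, rfl, rfl, hy₂, hs₂⟩ := exists_spec_some e E Ek h15 h4 h6 k4' k6' hΔ h₂ hQ
  rw [hs₁, hs₂]
  have hinj := IsFractionRing.injective R K
  have hsum : 5 • (Point.some _ _ h₁ + Point.some _ _ h₂) = 0 := by
    rw [smul_add, hP, hQ, add_zero]
  have hdiff : 5 • (Point.some _ _ h₁ + -Point.some _ _ h₂) = 0 := by
    rw [smul_add, smul_neg, hP, hQ, neg_zero, add_zero]
  by_cases hxy : algebraMap R K x₁ = algebraMap R K x₂ ∧
      algebraMap R K y₁ = E.negY (algebraMap R K x₂) (algebraMap R K y₂)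
  · rw [Point.add_of_Y_eq hxy.1 hxy.2]
    rw [negY_short, ← map_neg] at hxy
    rw [Point.add_of_Y_eq (congrArg e (hinj hxy.1))
      (by rw [negY_short, ← map_neg, hinj hxy.2])]
    rfl
  rw [Point.add_some hxy] at hsum ⊢
  obtain ⟨x₃, y₃, hk₃, hx₃, hy₃, -, hs₃⟩ := exists_spec_some e E Ek h15 h4 h6 k4' k6' hΔ _ hsum
  rw [hs₃]
  by_cases hx : x₁ = x₂
  · -- the tangent case
    subst hx
    have hyy : y₁ = y₂ := by
      refine hinj (Y_eq_of_Y_ne h₁.1 h₂.1 rfl fun h => hxy ⟨rfl, h⟩)
    subst hyy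
    rw [Point.add_self_of_Y_ne (ne_negY hy₁)]
    have hy₁K : algebraMap R K y₁ ≠ 0 := fun h =>
      hy₁ (by rw [show y₁ = 0 from hinj (by rw [h, map_zero]), map_zero])
    have hy1' : (2 : K) * algebraMap R K y₁ ≠ 0 := mul_ne_zero two_ne_zero hy₁K
    have hy1'' : (2 : k) * e y₁ ≠ 0 := mul_ne_zero two_ne_zero hy₁
    simp only [addX, addY, negAddY, negY_short, slope_of_Y_ne rfl (ne_negY (W := E) hy₁K),
      E.a₁_of_isShortNF, E.a₂_of_isShortNF, E.a₃_of_isShortNF, h4, mul_zero, zero_mul, sub_zero,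
      add_zero, sub_neg_eq_add, ← two_mul] at hx₃ hy₃
    simp only [addX, addY, negAddY, negY_short, slope_of_Y_ne rfl (ne_negY (W := Ek) hy₁),
      Ek.a₁_of_isShortNF, Ek.a₂_of_isShortNF, Ek.a₃_of_isShortNF, k4', mul_zero, zero_mul,
      sub_zero, add_zero, sub_neg_eq_add, ← two_mul, Point.some.injEq]
    have e3 : (x₃ + 2 * x₁) * (2 * y₁) ^ 2 = (3 * x₁ ^ 2 + A) ^ 2 := by
      apply hinj
      simp only [map_mul, map_add, map_pow, map_ofNat]
      rw [hx₃]
      field_simp
      ring
    have e4 : (y₃ + y₁) * (2 * y₁) = -((3 * x₁ ^ 2 + A) * (x₃ - x₁)) := by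
      apply hinj
      simp only [map_mul, map_add, map_neg, map_sub, map_pow, map_ofNat]
      rw [hy₃, hx₃]
      field_simp
      ring
    have e3' := congrArg e e3
    have e4' := congrArg e e4
    simp only [map_mul, map_add, map_neg, map_sub, map_pow, map_ofNat] at e3' e4'
    have hX : e x₃ = ((3 * e x₁ ^ 2 + e A) / (2 * e y₁)) ^ 2 - e x₁ - e x₁ := by
      field_simp
      linear_combination e3'
    refine ⟨hX, ?_⟩
    rw [← hX]
    field_simp
    linear_combination e4'
  · -- the chord case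
    have hxK : algebraMap R K x₁ ≠ algebraMap R K x₂ := fun h => hx (hinj h)
    simp only [addX, addY, negAddY, negY_short, slope_of_X_ne hxK,
      E.a₁_of_isShortNF, E.a₂_of_isShortNF, zero_mul, sub_zero, add_zero] at hx₃ hy₃
    have hsub : algebraMap R K x₁ - algebraMap R K x₂ ≠ 0 := sub_ne_zero.2 hxK
    have e3 : (x₃ + x₁ + x₂) * (x₁ - x₂) ^ 2 = (y₁ - y₂) ^ 2 := by
      apply hinj
      simp only [map_mul, map_add, map_sub, map_pow]
      rw [hx₃]
      field_simp
      ring
    have e4 : (y₃ + y₁) * (x₁ - x₂) = -((y₁ - y₂) * (x₃ - x₁)) := by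
      apply hinj
      simp only [map_mul, map_add, map_neg, map_sub]
      rw [hy₃, hx₃]
      field_simp
      ring
    have hex : e x₁ ≠ e x₂ := by
      intro he
      have hd : ∃ x₄ : R, (x₄ + x₁ + x₂) * (x₁ - x₂) ^ 2 = (y₁ + y₂) ^ 2 := by
        rw [Point.neg_some, Point.add_of_X_ne hxK] at hdiff
        obtain ⟨x₄, y₄, -, hx₄, -, -, -⟩ :=
          exists_spec_some e E Ek h15 h4 h6 k4' k6' hΔ _ hdiff
        refine ⟨x₄, hinj ?_⟩
        simp only [map_mul, map_add, map_sub, map_pow]
        simp only [addX, negY_short, slope_of_X_ne hxK, E.a₁_of_isShortNF, E.a₂_of_isShortNF,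
          zero_mul, sub_zero, add_zero] at hx₄
        rw [hx₄]
        field_simp
        ring
      obtain ⟨x₄, hd⟩ := hd
      have f3 := congrArg e e3
      have f4 := congrArg e hd
      simp only [map_mul, map_add, map_sub, map_pow, he, sub_self, ne_eq, OfNat.ofNat_ne_zero,
        not_false_eq_true, zero_pow, mul_zero] at f3 f4
      have g3 := pow_eq_zero_iff two_ne_zero |>.1 f3.symm
      have g4 := pow_eq_zero_iff two_ne_zero |>.1 f4.symm
      exact hy₁ (mul_left_cancel₀ (two_ne_zero : (2 : k) ≠ 0) (by linear_combination g3 + g4))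
    have hsub' : e x₁ - e x₂ ≠ 0 := sub_ne_zero.2 hex
    rw [Point.add_of_X_ne hex]
    simp only [addX, addY, negAddY, negY_short, slope_of_X_ne hex, Ek.a₁_of_isShortNF,
      Ek.a₂_of_isShortNF, zero_mul, sub_zero, add_zero, Point.some.injEq]
    have e3' := congrArg e e3
    have e4' := congrArg e e4
    simp only [map_mul, map_add, map_neg, map_sub, map_pow] at e3' e4'
    have hX : e x₃ = ((e y₁ - e y₂) / (e x₁ - e x₂)) ^ 2 - e x₁ - e x₂ := by
      field_simp
      linear_combination e3'
    refine ⟨hX, ?_⟩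
    rw [← hX]
    field_simp
    linear_combination e4'

/-- Specialisation on the 5-torsion, as a homomorphism. -/
noncomputable def specHom : Submodule.torsionBy ℤ E.Point (5 : ℕ) →+ Ek.Point where
  toFun P := spec e E Ek P
  map_zero' := rfl
  map_add' P Q := by
    have hmem : ∀ P : Submodule.torsionBy ℤ E.Point (5 : ℕ), 5 • (P : E.Point) = 0 := fun P => by
      have h := (Submodule.mem_torsionBy_iff _ _).1 P.2
      rwa [natCast_zsmul] at h
    exact spec_add e E Ek h15 h4 h6 k4' k6' hΔ (hmem P) (hmem Q)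

theorem specHom_injective : Function.Injective (specHom e E Ek h15 h4 h6 k4' k6' hΔ) := by
  rw [injective_iff_map_eq_zero]
  rintro ⟨_ | ⟨X, Y, h⟩, hP⟩ h0
  · rfl
  rw [Submodule.mem_torsionBy_iff, natCast_zsmul] at hP
  obtain ⟨x, y, hk, -, -, -, hs⟩ := exists_spec_some e E Ek h15 h4 h6 k4' k6' hΔ h hP
  exact absurd (hs ▸ h0) (Point.some_ne_zero hk)

end specialise

end Fermat.Agent.Switch
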