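/-
The explicit 5-torsion section of Klein's family and the resulting Galois-equivariant
identification of the 5-torsion of two members of a rational pencil.
-/
import Fermat.Agent.Switch.Specialise
import Fermat.Agent.Switch.Klein
import Fermat.Agent.EC.Torsion
import Mathlib.RingTheory.Polynomial.UniqueFactorization
import Fermat.Prelude.Def_FLTPrelim_GaloisRep

set_option autoImplicit false

namespace Fermat.Agent.Switch

open WeierstrassCurve WeierstrassCurve.Affine

section identities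

variable {F : Type*} [Field F] [CharZero F]

/-- `x`-coordinate of the section. -/
def secX (s a b : F) : F :=
  (-15 - 18 / 5 * s) * a ^ 2 + 198 / 5 * s * (a * b) + (-15 + 18 / 5 * s) * b ^ 2

/-- `y`-coordinate of the section divided by its leading coefficient. -/
def secY (s a b : F) : F :=
  a ^ 3 + (-33 / 2 + 5 / 2 * s) * (a ^ 2 * b) + (119 / 2 - 55 / 2 * s) * (a * b ^ 2)
    + (11 / 2 - 5 / 2 * s) * b ^ 3

/-- The square of the leading coefficient of the `y`-coordinate. -/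
def secLead (s : F) : F := (-15 - 18 / 5 * s - 3) ^ 2 * (-15 - 18 / 5 * s + 6)

theorem sec_on_curve {s w : F} (hs : s ^ 2 = 5) (hw : w ^ 2 = secLead s) (a b : F) :
    (w * secY s a b) ^ 2 =
      secX s a b ^ 3 + (-27 * k4 a b) * secX s a b + (-54 * k6 a b) := by
  rw [mul_pow, hw]
  unfold secLead secY secX k4 k6
  linear_combination ((85293/5) * b^6 + (368874/1) * a * b^5 + (1888839/1) * a^2 * b^4 + (-1138698/1) * a^3 * b^3
    + (158193/1) * a^4 * b^2 + (-32076/5) * a^5 * b + (-1458/1) * s * b^6 + (-34992/1) * s * a *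
    b^5 + (-237654/1) * s * a^2 * b^4 + (-314928/1) * s * a^3 * b^3 + (62694/1) * s * a^4 * b^2
    + (-2916/1) * s * a^5 * b + (-59049/25) * s^2 * b^6 + (-260982/5) * s^2 * a * b^5 +
    (-1431027/5) * s^2 * a^2 * b^4 + (121014/5) * s^2 * a^3 * b^3 + (13851/5) * s^2 * a^4 * b^2
    + (-5832/25) * s^2 * a^5 * b + (-1458/5) * s^3 * b^6 + (-32076/5) * s^3 * a * b^5 +
    (-173502/5) * s^3 * a^2 * b^4 + (32076/5) * s^3 * a^3 * b^3 + (-1458/5) * s^3 * a^4 * b^2) * hs

theorem sec_double {s : F} (hs : s ^ 2 = 5) (a b : F) :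
    secX (-s) a b * dupDen (-27 * k4 a b) (-54 * k6 a b) (secX s a b) =
      dupNum (-27 * k4 a b) (-54 * k6 a b) (secX s a b) := by
  unfold dupDen dupNum secX k4 k6
  linear_combination ((-104976/5) * b^8 + (-3569184/5) * a * b^7 + (-41150592/5) * a^2 * b^6 + (-167121792/5) *
    a^3 * b^5 + (-11442384/1) * a^4 * b^4 + (167121792/5) * a^5 * b^3 + (-41150592/5) * a^6 *
    b^2 + (3569184/5) * a^7 * b + (-104976/5) * a^8 + (209952/25) * s * b^8 + (6928416/25) * s *
    a * b^7 + (75792672/25) * s * a^2 * b^6 + (272517696/25) * s * a^3 * b^5 + (272517696/25) *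
    s * a^5 * b^3 + (-75792672/25) * s * a^6 * b^2 + (6928416/25) * s * a^7 * b + (-209952/25) *
    s * a^8 + (-104976/125) * s^2 * b^8 + (-4618944/125) * s^2 * a * b^7 + (-75792672/125) * s^2
    * a^2 * b^6 + (-545035392/125) * s^2 * a^3 * b^5 + (-277031664/25) * s^2 * a^4 * b^4 +
    (545035392/125) * s^2 * a^5 * b^3 + (-75792672/125) * s^2 * a^6 * b^2 + (4618944/125) * s^2
    * a^7 * b + (-104976/125) * s^2 * a^8) * hs

theorem sec_sub (s a b : F) : secX (-s) a b - secX s a b = 36 / 5 * s * kF a b := by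
  unfold secX kF; ring

theorem sec_isFivePair {s : F} (hs : s ^ 2 = 5) {a b : F} (hF : kF a b ≠ 0) :
    IsFivePair (-27 * k4 a b) (-54 * k6 a b) (secX s a b) (secX (-s) a b) := by
  refine ⟨sec_double hs a b, ?_, fun h => ?_⟩
  · simpa only [neg_neg] using sec_double (s := -s) (by rw [neg_sq, hs]) a b
  · have h' := sec_sub s a b
    rw [h, sub_self] at h'
    have hs0 : s ≠ 0 := by
      rintro rfl
      norm_num at hs
    exact mul_ne_zero (mul_ne_zero (by norm_num) hs0) hF h'.symm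

end identities

section galois

open Polynomial

local notation "Qbar" => AlgebraicClosure ℚ

variable (A B : ℚ[X])

/-- The generic member of the family, over the field of rational functions. -/
noncomputable abbrev genericCurve : WeierstrassCurve.Affine (FractionRing Qbar[X]) :=
  short (algebraMap Qbar[X] _ (A.map (algebraMap ℚ Qbar)))
    (algebraMap Qbar[X] _ (B.map (algebraMap ℚ Qbar)))

variable {A B} {E : WeierstrassCurve.Affine ℚ} [E.IsShortNF] {t : ℚ}

/-- Specialisation at a rational parameter. -/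
noncomputable abbrev evalAt (t : ℚ) : Qbar[X] →+* Qbar :=
  evalRingHom (algebraMap ℚ Qbar t)

theorem baseChange_Δ_ne_zero {E : WeierstrassCurve.Affine ℚ} (hE : E.Δ ≠ 0) :
    (E⁄Qbar).Δ ≠ 0 := by
  rw [show (E⁄Qbar).Δ = algebraMap ℚ Qbar E.Δ from WeierstrassCurve.map_Δ ..]
  exact (_root_.map_ne_zero _).2 hE

theorem evalAt_map (t : ℚ) (p : ℚ[X]) :
    evalAt t (p.map (algebraMap ℚ Qbar)) = algebraMap ℚ Qbar (p.eval t) := by
  rw [coe_evalRingHom, eval_map, eval₂_at_apply]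

theorem evalAt_map_galois (t : ℚ) (σ : Qbar ≃ₐ[ℚ] Qbar) (p : Qbar[X]) :
    evalAt t (p.map (σ : Qbar →+* Qbar)) = σ (evalAt t p) := by
  have h : algebraMap ℚ Qbar t = (σ : Qbar →+* Qbar) (algebraMap ℚ Qbar t) :=
    (σ.commutes t).symm
  rw [coe_evalRingHom, eval_map]
  conv_lhs => rw [h, eval₂_at_apply]
  rfl

theorem map_galois_map (σ : Qbar ≃ₐ[ℚ] Qbar) (p : ℚ[X]) :
    (p.map (algebraMap ℚ Qbar)).map (σ : Qbar →+* Qbar) = p.map (algebraMap ℚ Qbar) := by
  rw [Polynomial.map_map]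
  congr 1
  ext x
  simp

theorem genericCurve_Δ_ne_zero (h4 : E.a₄ = A.eval t) (h6 : E.a₆ = B.eval t) (hE : E.Δ ≠ 0) :
    (genericCurve A B).Δ ≠ 0 := by
  intro h
  apply hE
  rw [Δ_of_isShortNF] at h ⊢
  simp only [short] at h
  rw [h4, h6]
  have hA : algebraMap Qbar[X] (FractionRing Qbar[X])
      ((-16 * (4 * A ^ 3 + 27 * B ^ 2)).map (algebraMap ℚ Qbar)) = 0 := by
    simp only [Polynomial.map_mul, Polynomial.map_add, Polynomial.map_pow, Polynomial.map_neg,
      Polynomial.map_ofNat, map_mul, map_add, map_pow, map_neg, map_ofNat]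
    exact h
  have h0 : -16 * (4 * A ^ 3 + 27 * B ^ 2) = 0 :=
    Polynomial.map_injective _ (algebraMap ℚ Qbar).injective
      (by rw [Polynomial.map_zero]; exact IsFractionRing.injective _ _ (by rw [hA, map_zero]))
  simpa using congrArg (eval t) h0

variable [DecidableEq (FractionRing Qbar[X])]

theorem isUnit_fifteen : IsUnit (15 : Qbar[X]) := by
  rw [← C_ofNat, isUnit_C]
  exact IsUnit.mk0 _ (by norm_num)

/-- Specialisation of the generic 5-torsion at `t`, into the 5-torsion of `E`. -/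
noncomputable def specTorsion (h4 : E.a₄ = A.eval t) (h6 : E.a₆ = B.eval t) (hE : E.Δ ≠ 0) :
    Submodule.torsionBy ℤ (genericCurve A B).Point (5 : ℕ) →+
      Submodule.torsionBy ℤ (E⁄Qbar).Point (5 : ℕ) :=
  let f := specHom (evalAt t) (genericCurve A B) (E⁄Qbar) isUnit_fifteen rfl rfl
    (by rw [evalAt_map, ← h4]; rfl) (by rw [evalAt_map, ← h6]; rfl)
    (baseChange_Δ_ne_zero hE)
  { toFun := fun P => ⟨f P, by
      rw [Submodule.mem_torsionBy_iff, natCast_zsmul, ← map_nsmul,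
        show (5 : ℕ) • P = 0 from Subtype.ext (by
          have h := (Submodule.mem_torsionBy_iff _ _).1 P.2
          rwa [natCast_zsmul] at h), map_zero]⟩
    map_zero' := Subtype.ext (map_zero f)
    map_add' := fun P Q => Subtype.ext (map_add f P Q) }

theorem specTorsion_coe (h4 : E.a₄ = A.eval t) (h6 : E.a₆ = B.eval t) (hE : E.Δ ≠ 0)
    (P : Submodule.torsionBy ℤ (genericCurve A B).Point (5 : ℕ)) :
    (specTorsion h4 h6 hE P : (E⁄Qbar).Point) =
      spec (evalAt t) (genericCurve A B) (E⁄Qbar) P := rfl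

theorem specTorsion_injective (h4 : E.a₄ = A.eval t) (h6 : E.a₆ = B.eval t) (hE : E.Δ ≠ 0) :
    Function.Injective (specTorsion h4 h6 hE) := fun _ _ h =>
  specHom_injective _ _ _ _ _ _ _ _ _ (congrArg Subtype.val h)

/-- A Galois automorphism, acting on coefficients, permutes the generic 5-torsion compatibly with
every rational specialisation. -/
theorem exists_galois_conj (hG : (genericCurve A B).Δ ≠ 0) (σ : Qbar ≃ₐ[ℚ] Qbar)
    (P : Submodule.torsionBy ℤ (genericCurve A B).Point (5 : ℕ)) :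
    ∃ P' : Submodule.torsionBy ℤ (genericCurve A B).Point (5 : ℕ),
      ∀ (E : WeierstrassCurve.Affine ℚ) [E.IsShortNF] (t : ℚ) (h4 : E.a₄ = A.eval t)
        (h6 : E.a₆ = B.eval t) (hE : E.Δ ≠ 0),
        specTorsion h4 h6 hE P' = σ • specTorsion h4 h6 hE P := by
  obtain ⟨_ | ⟨X₀, Y₀, h⟩, hP⟩ := P
  · refine ⟨0, fun E _ t h4 h6 hE => Subtype.ext ?_⟩
    change (0 : (E⁄Qbar).Point) = σ • (0 : (E⁄Qbar).Point)
    exact (smul_zero (A := (E⁄Qbar).Point) σ).symm
  have hP' := hP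
  rw [Submodule.mem_torsionBy_iff, natCast_zsmul] at hP'
  obtain ⟨x, y, x', rfl, rfl, hc, h1, h2, h3⟩ :=
    exists_integral_coords (genericCurve A B) isUnit_fifteen rfl rfl h hP'
  set σp : Qbar[X] →+* Qbar[X] := mapRingHom (σ : Qbar →+* Qbar)
  have hA : σp (A.map (algebraMap ℚ Qbar)) = A.map (algebraMap ℚ Qbar) := map_galois_map σ A
  have hB : σp (B.map (algebraMap ℚ Qbar)) = B.map (algebraMap ℚ Qbar) := map_galois_map σ B
  set ι := algebraMap Qbar[X] (FractionRing Qbar[X])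
  have hc' := congrArg σp hc
  simp only [map_pow, map_add, map_mul, hA, hB] at hc'
  have hns : (genericCurve A B).Nonsingular (ι (σp x)) (ι (σp y)) := by
    refine nonsingular_of_sq_eq _ hG ?_
    change ι (σp y) ^ 2 = ι (σp x) ^ 3 + ι _ * ι (σp x) + ι _
    rw [← map_pow, hc']
    simp only [map_add, map_mul, map_pow]
  have h5 : 5 • Point.some _ _ hns = 0 := by
    refine (five_nsmul_some_eq_zero_iff hns).2 ⟨ι (σp x'), ?_, ?_, fun h => h3 ?_⟩
    · have := congrArg ι (congrArg σp h1)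
      simp only [dupDen, dupNum, map_pow, map_add, map_sub, map_mul, map_ofNat, hA, hB] at this
      simpa only [dupDen, dupNum, short] using this
    · have := congrArg ι (congrArg σp h2)
      simp only [dupDen, dupNum, map_pow, map_add, map_sub, map_mul, map_ofNat, hA, hB] at this
      simpa only [dupDen, dupNum, short] using this
    · exact Polynomial.map_injective _ σ.injective (IsFractionRing.injective _ _ h)
  refine ⟨⟨Point.some _ _ hns, by rw [Submodule.mem_torsionBy_iff, natCast_zsmul]; exact h5⟩,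
    fun E _ t h4 h6 hE => Subtype.ext ?_⟩
  have k4' : (E⁄Qbar).a₄ = evalAt t (A.map (algebraMap ℚ Qbar)) := by
    rw [evalAt_map, ← h4]; rfl
  have k6' : (E⁄Qbar).a₆ = evalAt t (B.map (algebraMap ℚ Qbar)) := by
    rw [evalAt_map, ← h6]; rfl
  have hΔ' : (E⁄Qbar).Δ ≠ 0 := baseChange_Δ_ne_zero hE
  obtain ⟨u, v, hk, hu, hv, -, hs⟩ := exists_spec_some (evalAt t) (genericCurve A B) (E⁄Qbar)
    isUnit_fifteen rfl rfl k4' k6' hΔ' h hP'
  obtain ⟨u', v', hk', hu', hv', -, hs'⟩ := exists_spec_some (evalAt t) (genericCurve A B)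
    (E⁄Qbar) isUnit_fifteen rfl rfl k4' k6' hΔ' hns h5
  change spec (evalAt t) (genericCurve A B) (E⁄Qbar) (Point.some _ _ hns) =
    σ • spec (evalAt t) (genericCurve A B) (E⁄Qbar) (Point.some _ _ h)
  rw [hs, hs', Point.algEquiv_smul_def, Point.map_some]
  simp only [Point.some.injEq]
  rw [IsFractionRing.injective _ _ hu', IsFractionRing.injective _ _ hv',
    IsFractionRing.injective _ _ hu, IsFractionRing.injective _ _ hv]
  exact ⟨evalAt_map_galois t σ x, evalAt_map_galois t σ y⟩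

/-- The Galois-equivariant identification of 5-torsion in a rational Klein pencil. -/
theorem exists_equivariant_torsion_equiv {a b : Qbar[X]}
    (hA : A.map (algebraMap ℚ Qbar) = -27 * k4 a b)
    (hB : B.map (algebraMap ℚ Qbar) = -54 * k6 a b)
    {E₀ E₁ : WeierstrassCurve.Affine ℚ} [E₀.IsShortNF] [E₁.IsShortNF] {t₀ t₁ : ℚ}
    (h4₀ : E₀.a₄ = A.eval t₀) (h6₀ : E₀.a₆ = B.eval t₀) (hE₀ : E₀.Δ ≠ 0)
    (h4₁ : E₁.a₄ = A.eval t₁) (h6₁ : E₁.a₆ = B.eval t₁) (hE₁ : E₁.Δ ≠ 0)
    (hirr : Point.GaloisRepIsIrreducible (K := Qbar) ℚ E₀ 5) :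
    ∃ f : Submodule.torsionBy ℤ (E₀⁄Qbar).Point (5 : ℕ) ≃+
        Submodule.torsionBy ℤ (E₁⁄Qbar).Point (5 : ℕ),
      ∀ (σ : Qbar ≃ₐ[ℚ] Qbar) P, f (σ • P) = σ • f P := by
  have hG := genericCurve_Δ_ne_zero h4₀ h6₀ hE₀
  obtain ⟨s, hs⟩ := IsAlgClosed.exists_pow_nat_eq (5 : Qbar) two_pos
  obtain ⟨w, hw⟩ := IsAlgClosed.exists_pow_nat_eq (secLead s) two_pos
  set ι := algebraMap Qbar[X] (FractionRing Qbar[X])
  set j : Qbar →+* FractionRing Qbar[X] := ι.comp C
  have e4 : (genericCurve A B).a₄ = -27 * k4 (ι a) (ι b) := by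
    change ι _ = _
    rw [hA, map_mul, map_k4, map_neg, map_ofNat]
  have e6 : (genericCurve A B).a₆ = -54 * k6 (ι a) (ι b) := by
    change ι _ = _
    rw [hB, map_mul, map_k6, map_neg, map_ofNat]
  have hF : kF (ι a) (ι b) ≠ 0 := by
    intro h
    apply hG
    rw [Δ_of_isShortNF, e4, e6]
    have h' := k4_cube_sub_k6_sq (ι a) (ι b)
    rw [h] at h'
    linear_combination (16 * 78732) * h'
  have hjs : j s ^ 2 = 5 := by rw [← map_pow, hs, map_ofNat]
  have hjw : j w ^ 2 = secLead (j s) := by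
    rw [← map_pow, hw]; simp [secLead, map_ofNat, map_div₀]
  have hP : (genericCurve A B).Nonsingular (secX (j s) (ι a) (ι b))
      (j w * secY (j s) (ι a) (ι b)) :=
    nonsingular_of_sq_eq _ hG (by rw [e4, e6]; exact sec_on_curve hjs hjw _ _)
  have hP5 : 5 • Point.some _ _ hP = 0 :=
    (five_nsmul_some_eq_zero_iff hP).2 ⟨_, by rw [e4, e6]; exact sec_isFivePair hjs hF⟩
  let P₀ : Submodule.torsionBy ℤ (genericCurve A B).Point (5 : ℕ) :=
    ⟨Point.some _ _ hP, by rw [Submodule.mem_torsionBy_iff, natCast_zsmul]; exact hP5⟩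
  set f₀ := specTorsion h4₀ h6₀ hE₀
  set f₁ := specTorsion h4₁ h6₁ hE₁
  have hi₀ : Function.Injective f₀ := specTorsion_injective ..
  have hi₁ : Function.Injective f₁ := specTorsion_injective ..
  have hb₀ : Function.Bijective f₀ := by
    refine ⟨hi₀, fun z => ?_⟩
    let N : Submodule (ZMod 5) (Submodule.torsionBy ℤ (E₀⁄Qbar).Point (5 : ℕ)) :=
      AddSubgroup.toZModSubmodule 5 f₀.range
    have hN : Point.IsGaloisStable ℚ N := by
      rintro σ _ ⟨P, rfl⟩
      obtain ⟨P', hP'⟩ := exists_galois_conj hG σ P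
      exact ⟨P', hP' E₀ t₀ h4₀ h6₀ hE₀⟩
    rcases hirr.2 N hN with h | h
    · exfalso
      have h0 : f₀ P₀ ∈ N := ⟨P₀, rfl⟩
      rw [h, Submodule.mem_bot, ← map_zero f₀] at h0
      exact Point.some_ne_zero hP (congrArg Subtype.val (hi₀ h0))
    · have hz : z ∈ N := h ▸ Submodule.mem_top
      exact hz
  haveI : (E₀⁄Qbar).IsElliptic := ⟨isUnit_iff_ne_zero.2 (baseChange_Δ_ne_zero hE₀)⟩
  haveI : (E₁⁄Qbar).IsElliptic := ⟨isUnit_iff_ne_zero.2 (baseChange_Δ_ne_zero hE₁)⟩
  have hc₀ : Nat.card (Submodule.torsionBy ℤ (E₀⁄Qbar).Point (5 : ℕ)) = 5 ^ 2 :=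
    EC.card_torsionBy_Qbar (by norm_num)
  have hc₁ : Nat.card (Submodule.torsionBy ℤ (E₁⁄Qbar).Point (5 : ℕ)) = 5 ^ 2 :=
    EC.card_torsionBy_Qbar (by norm_num)
  haveI : Finite (Submodule.torsionBy ℤ (E₁⁄Qbar).Point (5 : ℕ)) :=
    EC.finite_torsionBy_Qbar (by norm_num)
  haveI : Finite (Submodule.torsionBy ℤ (genericCurve A B).Point (5 : ℕ)) :=
    Finite.of_injective f₁ hi₁
  have hb₁ : Function.Bijective f₁ :=
    Nat.bijective_iff_injective_and_card f₁ |>.2
      ⟨hi₁, by rw [Nat.card_eq_of_bijective f₀ hb₀, hc₀, hc₁]⟩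
  refine ⟨(AddEquiv.ofBijective f₀ hb₀).symm.trans (AddEquiv.ofBijective f₁ hb₁), fun σ z => ?_⟩
  obtain ⟨P, rfl⟩ := hb₀.2 z
  obtain ⟨P', hP'⟩ := exists_galois_conj hG σ P
  have e : ∀ Q, (AddEquiv.ofBijective f₀ hb₀).symm.trans (AddEquiv.ofBijective f₁ hb₁) (f₀ Q) =
      f₁ Q := fun Q => congrArg (AddEquiv.ofBijective f₁ hb₁)
        ((AddEquiv.ofBijective f₀ hb₀).symm_apply_apply Q)
  rw [← hP' E₀ t₀ h4₀ h6₀ hE₀, e, e]
  exact hP' E₁ t₁ h4₁ h6₁ hE₁

end galois

end Fermat.Agent.Switch
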