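/-
The mod 5 congruence between the traces of Frobenius of a curve and of the members of its pencil.
-/
import Fermat.Agent.Switch.Data
import Fermat.Agent.Switch.Section
import Fermat.Agent.Switch.Model
import Fermat.Agent.ECRed.Frobenius
import Fermat.Prelude.Def_FLTPrelim_ModularRep

set_option autoImplicit false

noncomputable section

namespace Fermat.Agent.Switch

open WeierstrassCurve WeierstrassCurve.Affine Polynomial

local notation "Qbar" => AlgebraicClosure ℚ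

section torsion

variable {E E' : WeierstrassCurve.Affine ℚ} {m : ℕ}

/-- An equivariant isomorphism of points restricts to the torsion. -/
theorem exists_torsion_equiv (e : (E⁄Qbar).Point ≃+ (E'⁄Qbar).Point)
    (he : ∀ (σ : Qbar ≃ₐ[ℚ] Qbar) P, e (σ • P) = σ • e P) :
    ∃ f : Submodule.torsionBy ℤ (E⁄Qbar).Point (m : ℤ) ≃+
        Submodule.torsionBy ℤ (E'⁄Qbar).Point (m : ℤ),
      ∀ (σ : Qbar ≃ₐ[ℚ] Qbar) P, f (σ • P) = σ • f P := by
  let f : Submodule.torsionBy ℤ (E⁄Qbar).Point (m : ℤ) ≃+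
      Submodule.torsionBy ℤ (E'⁄Qbar).Point (m : ℤ) :=
    { toFun := fun P => ⟨e P, by
        rw [Submodule.mem_torsionBy_iff, ← map_zsmul e, (Submodule.mem_torsionBy_iff _ _).1 P.2,
          map_zero]⟩
      invFun := fun P => ⟨e.symm P, by
        rw [Submodule.mem_torsionBy_iff, ← map_zsmul e.symm,
          (Submodule.mem_torsionBy_iff _ _).1 P.2, map_zero]⟩
      left_inv := fun P => Subtype.ext (e.symm_apply_apply P)
      right_inv := fun P => Subtype.ext (e.apply_symm_apply P)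
      map_add' := fun P Q => Subtype.ext (map_add e (P : (E⁄Qbar).Point) Q) }
  exact ⟨f, fun σ P => Subtype.ext (he σ P)⟩

/-- Irreducibility only depends on the Galois module. -/
theorem galoisRepIsIrreducible_of_equiv [NeZero m]
    (f : Submodule.torsionBy ℤ (E⁄Qbar).Point (m : ℤ) ≃+
      Submodule.torsionBy ℤ (E'⁄Qbar).Point (m : ℤ))
    (hf : ∀ (σ : Qbar ≃ₐ[ℚ] Qbar) P, f (σ • P) = σ • f P)
    (h : Point.GaloisRepIsIrreducible (K := Qbar) ℚ E m) :
    Point.GaloisRepIsIrreducible (K := Qbar) ℚ E' m := by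
  obtain ⟨hnt, hirr⟩ := h
  refine ⟨(@Function.Injective.nontrivial _ _ hnt _ f.injective), fun N hN => ?_⟩
  let φ := AddMonoidHom.toZModLinearMap m f.toAddMonoidHom
  have hst : Point.IsGaloisStable ℚ (N.comap φ) := fun σ x hx => by
    change f (σ • x) ∈ N
    rw [hf]
    exact hN σ _ hx
  have hsurj : Function.Surjective φ := f.surjective
  rcases hirr _ hst with h0 | h0
  · refine Or.inl ?_
    rw [← Submodule.map_comap_eq_of_surjective hsurj N, h0, Submodule.map_bot]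
  · refine Or.inr ?_
    rw [← Submodule.map_comap_eq_of_surjective hsurj N, h0, Submodule.map_top,
      LinearMap.range_eq_top.2 hsurj]

end torsion

/-- Traces of members of the pencil are congruent mod 5 to those of `W`. -/
theorem dvd_apOfModel_sub_of_pencil (W W' : WeierstrassCurve ℤ) (hΔ : W.Δ ≠ 0) (hΔ' : W'.Δ ≠ 0)
    (h5 : W.ModRepIsIrreducible 5) (d : PencilData (W.c₄ : ℚ) (W.c₆ : ℚ)) {l m : ℚ} (hl : l ≠ 0)
    (h4 : (W'.c₄ : ℚ) = homEval 20 d.P4 l m) (h6 : (W'.c₆ : ℚ) = homEval 30 d.P6 l m)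
    {ℓ : ℕ} (hℓ : ℓ.Prime) (hg : W.IsGoodPrimeFor ℓ) (hg' : W'.IsGoodPrimeFor ℓ) (hne : ℓ ≠ 5) :
    (5 : ℤ) ∣ W'.apOfModel ℓ - W.apOfModel ℓ := by
  classical
  set E : WeierstrassCurve.Affine ℚ := W.map (Int.castRingHom ℚ) with hE
  set E' : WeierstrassCurve.Affine ℚ := W'.map (Int.castRingHom ℚ) with hE'
  set At : ℚ[X] := -27 * d.P4 with hAt
  set Bt : ℚ[X] := -54 * d.P6 with hBt
  let S : WeierstrassCurve.Affine ℚ := short (At.eval 0) (Bt.eval 0)
  let S' : WeierstrassCurve.Affine ℚ := short (At.eval (m / l)) (Bt.eval (m / l))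
  haveI : S.IsShortNF := ⟨rfl, rfl, rfl⟩
  haveI : S'.IsShortNF := ⟨rfl, rfl, rfl⟩
  have hc4 : E.c₄ = (W.c₄ : ℚ) := WeierstrassCurve.map_c₄ ..
  have hc6 : E.c₆ = (W.c₆ : ℚ) := WeierstrassCurve.map_c₆ ..
  have hc4' : E'.c₄ = (W'.c₄ : ℚ) := WeierstrassCurve.map_c₄ ..
  have hc6' : E'.c₆ = (W'.c₆ : ℚ) := WeierstrassCurve.map_c₆ ..
  have hEΔ : E.Δ ≠ 0 := by
    rw [show E.Δ = ((W.Δ : ℤ) : ℚ) from WeierstrassCurve.map_Δ ..]; exact_mod_cast hΔ
  have hEΔ' : E'.Δ ≠ 0 := by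
    rw [show E'.Δ = ((W'.Δ : ℤ) : ℚ) from WeierstrassCurve.map_Δ ..]; exact_mod_cast hΔ'
  have hm : IsModel E S 1 := by
    refine ⟨rfl, rfl, rfl, ?_, ?_⟩
    · change At.eval 0 = _
      rw [hc4, ← coeff_zero_eq_eval_zero, hAt, mul_coeff_zero, d.coeff_zero4]; simp
    · change Bt.eval 0 = _
      rw [hc6, ← coeff_zero_eq_eval_zero, hBt, mul_coeff_zero, d.coeff_zero6]; simp
  have hm' : IsModel E' S' (l ^ 5)⁻¹ := by
    refine ⟨rfl, rfl, rfl, ?_, ?_⟩
    · change At.eval (m / l) = _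
      rw [hc4', h4, homEval_eq_of_ne_zero d.deg4 hl, hAt]; simp only [eval_mul, eval_neg, eval_ofNat]
      field_simp
    · change Bt.eval (m / l) = _
      rw [hc6', h6, homEval_eq_of_ne_zero d.deg6 hl, hBt]; simp only [eval_mul, eval_neg, eval_ofNat]
      field_simp
  have hμ : ((l ^ 5)⁻¹ : ℚ) ≠ 0 := inv_ne_zero (pow_ne_zero _ hl)
  have hSΔ : S.Δ ≠ 0 := by rw [hm.Δ_eq, one_pow, mul_one]; exact mul_ne_zero (by norm_num) hEΔ
  have hSΔ' : S'.Δ ≠ 0 := by
    rw [hm'.Δ_eq]; exact mul_ne_zero (mul_ne_zero (by norm_num) (pow_ne_zero _ hμ)) hEΔ'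
  have hq1 : algebraMap ℚ Qbar 1 ≠ 0 := by simp
  have hqμ : algebraMap ℚ Qbar (l ^ 5)⁻¹ ≠ 0 := (_root_.map_ne_zero _).2 hμ
  obtain ⟨f, hf⟩ := exists_torsion_equiv (m := 5)
    (hm.baseChange.pointEquiv hq1 (baseChange_Δ_ne_zero hEΔ))
    (fun σ P => hm.pointEquiv_smul hq1 (baseChange_Δ_ne_zero hEΔ) σ P)
  obtain ⟨f', hf'⟩ := exists_torsion_equiv (m := 5)
    (hm'.baseChange.pointEquiv hqμ (baseChange_Δ_ne_zero hEΔ'))
    (fun σ P => hm'.pointEquiv_smul hqμ (baseChange_Δ_ne_zero hEΔ') σ P)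
  have hirr : Point.GaloisRepIsIrreducible (K := Qbar) ℚ S 5 :=
    galoisRepIsIrreducible_of_equiv f hf h5
  obtain ⟨g, hg5⟩ := exists_equivariant_torsion_equiv (A := At) (B := Bt)
    (a := (pencilVec d.u d.v).1 ^ 5) (b := (pencilVec d.u d.v).2 ^ 5)
    (by rw [hAt, Polynomial.map_mul, d.map4]; simp [pencil, c4form])
    (by rw [hBt, Polynomial.map_mul, d.map6]; simp [pencil, c6form])
    (E₀ := S) (E₁ := S') (t₀ := 0) (t₁ := m / l) rfl rfl hSΔ rfl rfl hSΔ' hirr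
  refine ECRed.dvd_apOfModel_sub_of_equivariant (p := 5) Nat.prime_five (f.trans (g.trans f'.symm))
    (fun σ x => ?_) hℓ hne.symm hg hg'
  apply f'.injective
  refine (f'.apply_symm_apply (g (f (σ • x)))).trans ?_
  rw [hf, hg5]
  refine Eq.trans ?_ (hf' σ _).symm
  exact congrArg (σ • ·) (f'.apply_symm_apply _).symm

end Fermat.Agent.Switch
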