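/-
Integral semistable models of the members of the pencil along `(1 + n M : M)`.
-/
import Fermat.Agent.Switch.Data
import Fermat.Prelude.Def_FLTPrelim_Modularity
import Mathlib.Algebra.Field.ZMod
import Mathlib.NumberTheory.Padics.PadicVal.Basic
import Mathlib.Algebra.BigOperators.GroupWithZero.Finset

set_option autoImplicit false

noncomputable section

namespace Fermat.Agent.Switch

open Polynomial

/-- A common denominator. -/
theorem exists_denominator (S : Finset ℚ[X]) :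
    ∃ R : ℕ, R ≠ 0 ∧ ∀ p ∈ S, ∃ q : ℤ[X], q.map (Int.castRingHom ℚ) = (R : ℚ[X]) * p := by
  refine ⟨∏ p ∈ S, ∏ i ∈ p.support, (p.coeff i).den, ?_, fun p hp => ?_⟩
  · simp [Finset.prod_ne_zero_iff, Rat.den_ne_zero]
  set R := ∏ p ∈ S, ∏ i ∈ p.support, (p.coeff i).den with hR
  have hmem : (R : ℚ[X]) * p ∈ lifts (Int.castRingHom ℚ) := by
    rw [lifts_iff_coeff_lifts]
    intro i
    rw [← C_eq_natCast, coeff_C_mul]
    by_cases hi : i ∈ p.support
    · obtain ⟨c, hc⟩ : (p.coeff i).den ∣ R :=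
        (Finset.dvd_prod_of_mem _ hi).trans
          (Finset.dvd_prod_of_mem (fun p : ℚ[X] => ∏ i ∈ p.support, (p.coeff i).den) hp)
      refine ⟨(c : ℤ) * (p.coeff i).num, ?_⟩
      rw [hc]
      push_cast
      simp only [eq_intCast, Int.cast_mul, Int.cast_natCast]
      linear_combination (-(c : ℚ)) * Rat.mul_den_eq_num (p.coeff i)
    · rw [mem_support_iff, ne_eq, not_not] at hi
      exact ⟨0, by rw [hi, mul_zero, map_zero]⟩
  exact (mem_lifts _).1 hmem

/-- If the coefficients above the constant one are divisible after multiplying by `M`, the value at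
`(1 + n M : M)` is an integer congruent to the constant coefficient. -/
theorem exists_int_homEval (m : ℕ) (p : ℚ[X]) (a : ℤ) (ha : p.coeff 0 = a) (M : ℤ) (K : ℤ)
    (hK : K ∣ M) (q : ℤ[X]) (R : ℤ) (hq : q.map (Int.castRingHom ℚ) = C (R : ℚ) * p)
    (hM : R * K ∣ M) (n : ℤ) :
    ∃ c : ℤ, homEval m p ((1 + n * M : ℤ) : ℚ) (M : ℚ) = c ∧ K ∣ c - a ∧
      R * c = homEval m q (1 + n * M) M := by
  obtain ⟨M', rfl⟩ := hM
  set l : ℤ := 1 + n * (R * K * M') with hl
  have hcoeff : ∀ i, ((q.coeff i : ℤ) : ℚ) = R * p.coeff i := fun i => by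
    rw [← coeff_C_mul, ← hq, coeff_map, eq_intCast]
  have hsum : (R : ℚ) * homEval m p (l : ℚ) ((R * K * M' : ℤ) : ℚ) =
      ((homEval m q l (R * K * M') : ℤ) : ℚ) := by
    simp only [homEval, Finset.mul_sum, Int.cast_sum, Int.cast_mul, Int.cast_pow, hcoeff]
    exact Finset.sum_congr rfl fun i _ => by ring
  let c : ℤ := a * l ^ m + K * M' *
    ∑ i ∈ Finset.range m, q.coeff (i + 1) * (R * K * M') ^ i * l ^ (m - (i + 1))
  have hc : homEval m p (l : ℚ) ((R * K * M' : ℤ) : ℚ) = (c : ℚ) := by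
    simp only [c, homEval, Finset.sum_range_succ', Finset.mul_sum]
    push_cast
    simp only [ha, hcoeff]
    rw [add_comm]
    congr 1
    · simp
    · exact Finset.sum_congr rfl fun i _ => by ring
  refine ⟨c, hc, ?_, ?_⟩
  · have h1 : K ∣ l ^ m - 1 := by
      refine dvd_trans ?_ (sub_dvd_pow_sub_pow l 1 m |> fun h => by simpa using h)
      simp only [hl, add_sub_cancel_left]
      exact Dvd.dvd.mul_left hK n
    have : c - a = a * (l ^ m - 1) + K * (M' *
        ∑ i ∈ Finset.range m, q.coeff (i + 1) * (R * K * M') ^ i * l ^ (m - (i + 1))) := by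
      simp only [c]; ring
    rw [this]
    exact dvd_add (h1.mul_left a) (dvd_mul_right _ _)
  · have := hsum
    rw [hc] at this
    exact_mod_cast this

theorem homEval_eq_top {R : Type*} [CommRing R] (m : ℕ) (p : R[X]) (μ : R) :
    homEval m p 0 μ = p.coeff m * μ ^ m := by
  rw [homEval, Finset.sum_eq_single m]
  · simp
  · intro i hi hne
    rw [zero_pow (by have := Finset.mem_range.1 hi; omega), mul_zero]
  · intro h; exact absurd (Finset.self_mem_range_succ m) h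

/-- The members of the pencil along `(1 + n M : M)` have semistable integral models congruent to
`W`, with the same valuation of the discriminant, at every prime dividing `6 m₀ Δ`. -/
theorem exists_integral_member (W : WeierstrassCurve ℤ) (hΔ : W.Δ ≠ 0) (hW : W.IsSemistableModel)
    (d : PencilData (W.c₄ : ℚ) (W.c₆ : ℚ)) (m₀ : ℕ) (hm₀ : m₀ ≠ 0) :
    ∃ M : ℕ, M ≠ 0 ∧ ∀ n : ℕ,
      homEval 12 d.PD ((1 + n * M : ℕ) : ℚ) (M : ℚ) ≠ 0 →
      ∃ W' : WeierstrassCurve ℤ, W'.Δ ≠ 0 ∧ W'.IsSemistableModel ∧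
        (W'.c₄ : ℚ) = homEval 20 d.P4 ((1 + n * M : ℕ) : ℚ) (M : ℚ) ∧
        (W'.c₆ : ℚ) = homEval 30 d.P6 ((1 + n * M : ℕ) : ℚ) (M : ℚ) ∧
        ∀ q : ℕ, q.Prime → (q : ℤ) ∣ 6 * (m₀ : ℤ) * W.Δ →
          W'.reductionMod q = W.reductionMod q ∧
            padicValInt q W'.Δ = padicValInt q W.Δ := by
  classical
  have hrel : (W.c₄ : ℚ) ^ 3 - (W.c₆ : ℚ) ^ 2 = 1728 * (W.Δ : ℚ) := by
    exact_mod_cast W.c_relation.symm
  have hcop : IsCoprime d.P4 d.PD := by
    refine (@Polynomial.isCoprime_iff_aeval_ne_zero_of_isAlgClosed ℚ _ (AlgebraicClosure ℚ) _ _ _ d.P4 d.PD).2 ?_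
    intro z
    have h := d.not_c4_d (l := 1) (m := z) (Or.inl one_ne_zero)
    rwa [homEval_eq_of_ne_zero (by rw [natDegree_map]; exact d.deg4) one_ne_zero,
      homEval_eq_of_ne_zero (by rw [natDegree_map]; exact d.degD) one_ne_zero, one_pow, one_mul,
      one_pow, one_mul, div_one, eval_map_algebraMap, eval_map_algebraMap] at h
  obtain ⟨U, V, hUV⟩ := hcop
  obtain ⟨R, hR0, hR⟩ := exists_denominator {d.P4, d.P6, d.PD, U, V}
  obtain ⟨q4, hq4⟩ := hR d.P4 (by simp)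
  obtain ⟨q6, hq6⟩ := hR d.P6 (by simp)
  obtain ⟨qD, hqD⟩ := hR d.PD (by simp)
  obtain ⟨qU, hqU⟩ := hR U (by simp)
  obtain ⟨qV, hqV⟩ := hR V (by simp)
  have hbez : qU * q4 + qV * qD = (R : ℤ[X]) ^ 2 := by
    apply Polynomial.map_injective (Int.castRingHom ℚ) (RingHom.injective_int _)
    simp only [Polynomial.map_add, Polynomial.map_mul, Polynomial.map_pow, Polynomial.map_natCast,
      hq4, hqD, hqU, hqV]
    linear_combination (R : ℚ[X]) ^ 2 * hUV
  obtain ⟨T, hT0, hT⟩ : ∃ T : ℤ, T ≠ 0 ∧ (T = q4.coeff 20 ∨ T = qD.coeff 12) := by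
    by_contra! hno
    have e4 : q4.coeff 20 = 0 := by
      by_contra hne; exact (hno _ hne).1 rfl
    have eD : qD.coeff 12 = 0 := by
      by_contra hne; exact (hno _ hne).2 rfl
    have h := d.not_c4_d (l := 0) (m := 1) (Or.inr one_ne_zero)
    rw [homEval_eq_top, homEval_eq_top, coeff_map, coeff_map] at h
    have hR' : (R : ℚ) ≠ 0 := Nat.cast_ne_zero.2 hR0
    have f4 : d.P4.coeff 20 = 0 := by
      have := congrArg (fun r => r.coeff 20) hq4
      simp only [← C_eq_natCast, coeff_map, coeff_C_mul, e4, map_zero] at this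
      exact (mul_eq_zero.1 this.symm).resolve_left hR'
    have fD : d.PD.coeff 12 = 0 := by
      have := congrArg (fun r => r.coeff 12) hqD
      simp only [← C_eq_natCast, coeff_map, coeff_C_mul, eD, map_zero] at this
      exact (mul_eq_zero.1 this.symm).resolve_left hR'
    simp [f4, fD] at h
  set M1 : ℕ := 1728 * R * W.Δ.natAbs * T.natAbs * m₀ with hM1
  set M : ℕ := R * (1728 * M1) with hM
  have hM0 : M ≠ 0 := by simp [hM, hM1, hR0, hΔ, hT0, hm₀]
  refine ⟨M, hM0, fun n hn => ?_⟩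
  have hK : ((1728 * M1 : ℕ) : ℤ) ∣ (M : ℤ) := Int.natCast_dvd_natCast.2 ⟨R, by rw [hM]; ring⟩
  have hRK : (R : ℤ) * ((1728 * M1 : ℕ) : ℤ) ∣ (M : ℤ) := by rw [hM]; push_cast; exact dvd_rfl
  have hR4 : q4.map (Int.castRingHom ℚ) = C ((R : ℤ) : ℚ) * d.P4 := by simpa [C_eq_natCast] using hq4
  have hR6 : q6.map (Int.castRingHom ℚ) = C ((R : ℤ) : ℚ) * d.P6 := by simpa [C_eq_natCast] using hq6
  have hRD : qD.map (Int.castRingHom ℚ) = C ((R : ℤ) : ℚ) * d.PD := by simpa [C_eq_natCast] using hqD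
  obtain ⟨c4', hc4, hd4, he4⟩ :=
    exists_int_homEval 20 d.P4 W.c₄ d.coeff_zero4 M _ hK q4 R hR4 hRK n
  obtain ⟨c6', hc6, hd6, -⟩ :=
    exists_int_homEval 30 d.P6 W.c₆ d.coeff_zero6 M _ hK q6 R hR6 hRK n
  obtain ⟨cD, hcD, hdD, heD⟩ :=
    exists_int_homEval 12 d.PD 1 (by rw [d.coeff_zeroD]; simp) M _ hK qD R hRD hRK n
  obtain ⟨k, hk⟩ : (M1 : ℤ) * 1728 ∣ c4' - W.c₄ := by
    refine dvd_trans ?_ hd4; push_cast; rw [mul_comm]
  obtain ⟨j, hj⟩ : (M1 : ℤ) * 1728 ∣ c6' - W.c₆ := by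
    refine dvd_trans ?_ hd6; push_cast; rw [mul_comm]
  let W' : WeierstrassCurve ℤ :=
    ⟨W.a₁, W.a₂, W.a₃, W.a₄ - 36 * ((M1 : ℤ) * k),
      W.a₆ - (3 * W.b₂ * ((M1 : ℤ) * k) + 2 * ((M1 : ℤ) * j))⟩
  have e4 : W'.c₄ = c4' := by
    simp only [W', WeierstrassCurve.c₄, WeierstrassCurve.b₂, WeierstrassCurve.b₄] at hk ⊢
    linear_combination -hk
  have e6 : W'.c₆ = c6' := by
    simp only [W', WeierstrassCurve.c₆, WeierstrassCurve.b₂, WeierstrassCurve.b₄,
      WeierstrassCurve.b₆] at hj ⊢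
    linear_combination -hj
  have hcast : ((1 + n * M : ℕ) : ℚ) = ((1 + (n : ℤ) * (M : ℤ) : ℤ) : ℚ) := by push_cast; ring
  have hMq : (M : ℚ) = ((M : ℤ) : ℚ) := (Int.cast_natCast M).symm
  rw [hcast, hMq] at hn ⊢
  have hΔ' : W'.Δ = W.Δ * cD ^ 5 := by
    have hs := d.syzygy ((1 + (n : ℤ) * (M : ℤ) : ℤ) : ℚ) ((M : ℤ) : ℚ)
    rw [hc4, hc6, hcD, hrel, ← e4, ← e6] at hs
    have hr' : (1728 : ℚ) * (W'.Δ : ℚ) = (W'.c₄ : ℚ) ^ 3 - (W'.c₆ : ℚ) ^ 2 := by
      exact_mod_cast W'.c_relation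
    have : (W'.Δ : ℚ) = (W.Δ : ℚ) * (cD : ℚ) ^ 5 := by linear_combination (hs + hr') / 1728
    exact_mod_cast this
  have hcD0 : cD ≠ 0 := by
    intro h0; apply hn; rw [hcD, h0]; simp
  have hred : ∀ q : ℕ, q ∣ M1 →
      W'.map (Int.castRingHom (ZMod q)) = W.map (Int.castRingHom (ZMod q)) := fun q hqM => by
    have hz : ((M1 : ℤ) : ZMod q) = 0 :=
      (ZMod.intCast_zmod_eq_zero_iff_dvd _ _).2 (Int.natCast_dvd_natCast.2 hqM)
    ext <;>
      simp only [W', WeierstrassCurve.map_a₁, WeierstrassCurve.map_a₂, WeierstrassCurve.map_a₃,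
        WeierstrassCurve.map_a₄, WeierstrassCurve.map_a₆, eq_intCast, Int.cast_sub, Int.cast_add,
        Int.cast_mul, hz, zero_mul, mul_zero, add_zero, sub_zero]
  refine ⟨W', by rw [hΔ']; exact mul_ne_zero hΔ (pow_ne_zero _ hcD0), ?_, by rw [e4, hc4],
    by rw [e6, hc6], fun q hq hq6 => ?_⟩
  swap
  · haveI : Fact q.Prime := ⟨hq⟩
    have hqM : q ∣ M1 := by
      have h6 : q ∣ 6 * m₀ * W.Δ.natAbs := by
        rw [← Int.natCast_dvd_natCast, Nat.cast_mul, Nat.cast_mul, Int.natCast_natAbs]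
        exact (dvd_abs _ _).2 hq6 |>.trans (by rw [abs_mul, abs_mul]; simp)
      rw [hM1]
      refine h6.trans ⟨288 * R * T.natAbs, ?_⟩
      ring
    refine ⟨hred q hqM, ?_⟩
    have hqD : ¬ (q : ℤ) ∣ cD := by
      intro h
      have h1 : (q : ℤ) ∣ cD - 1 :=
        dvd_trans (Int.natCast_dvd_natCast.2 (hqM.trans (dvd_mul_left M1 1728))) hdD
      have h2 : (q : ℤ) ∣ 1 := by simpa using dvd_sub h h1
      exact hq.not_dvd_one (by exact_mod_cast h2)
    rw [hΔ', padicValInt.mul hΔ (pow_ne_zero _ hcD0)]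
    have h0 : padicValInt q (cD ^ 5) = 0 :=
      padicValInt.eq_zero_of_not_dvd fun h =>
        hqD ((Nat.prime_iff_prime_int.1 hq).dvd_of_dvd_pow h)
    omega
  intro q hq hqΔ hqc
  haveI : Fact q.Prime := ⟨hq⟩
  by_cases hqM : q ∣ M1
  · have hmap := hred q hqM
    rw [← ZMod.intCast_zmod_eq_zero_iff_dvd] at hqΔ hqc
    have h1 : ((W.Δ : ℤ) : ZMod q) = 0 := by
      rw [← hqΔ]
      have := congrArg WeierstrassCurve.Δ hmap
      simp only [WeierstrassCurve.map_Δ, eq_intCast] at this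
      exact this.symm
    have h2 : ((W.c₄ : ℤ) : ZMod q) = 0 := by
      rw [← hqc]
      have := congrArg WeierstrassCurve.c₄ hmap
      simp only [WeierstrassCurve.map_c₄, eq_intCast] at this
      exact this.symm
    exact hW q hq ((ZMod.intCast_zmod_eq_zero_iff_dvd _ _).1 h1)
      ((ZMod.intCast_zmod_eq_zero_iff_dvd _ _).1 h2)
  · rw [← ZMod.intCast_zmod_eq_zero_iff_dvd] at hqΔ hqc
    have hne : ∀ z : ℤ, z.natAbs ∣ M1 → (z : ZMod q) ≠ 0 := fun z hz hz0 => by
      rw [ZMod.intCast_zmod_eq_zero_iff_dvd, Int.natCast_dvd] at hz0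
      exact hqM (hz0.trans hz)
    have hRq : ((R : ℤ) : ZMod q) ≠ 0 :=
      hne _ (by rw [hM1, Int.natAbs_natCast]; exact ⟨1728 * W.Δ.natAbs * T.natAbs * m₀, by ring⟩)
    have hΔq : (W.Δ : ZMod q) ≠ 0 :=
      hne _ (by rw [hM1]; exact ⟨1728 * R * T.natAbs * m₀, by ring⟩)
    have hTq : (T : ZMod q) ≠ 0 :=
      hne _ (by rw [hM1]; exact ⟨1728 * R * W.Δ.natAbs * m₀, by ring⟩)
    have h1728 : ((1728 : ℤ) : ZMod q) ≠ 0 :=
      hne _ (by rw [hM1]; exact ⟨R * W.Δ.natAbs * T.natAbs * m₀, by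
        rw [show (1728 : ℤ).natAbs = 1728 from rfl]; ring⟩)
    have hMq' : ((M : ℤ) : ZMod q) ≠ 0 := by
      rw [hM]
      push_cast at hRq h1728 ⊢
      refine mul_ne_zero hRq (mul_ne_zero h1728 ?_)
      have := hne (M1 : ℤ) (by simp)
      simpa using this
    rw [e4] at hqc
    have hcDq : (cD : ZMod q) = 0 := by
      rw [hΔ', Int.cast_mul, Int.cast_pow] at hqΔ
      exact pow_eq_zero_iff (by norm_num : (5 : ℕ) ≠ 0) |>.1 ((mul_eq_zero.1 hqΔ).resolve_left hΔq)
    set φ := Int.castRingHom (ZMod q)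
    set l : ZMod q := φ (1 + (n : ℤ) * (M : ℤ))
    have z4 : homEval 20 (q4.map φ) l (φ M) = 0 := by
      rw [← map_homEval, ← he4, map_mul, show φ c4' = 0 from hqc, mul_zero]
    have zD : homEval 12 (qD.map φ) l (φ M) = 0 := by
      rw [← map_homEval, ← heD, map_mul, show φ cD = 0 from hcDq, mul_zero]
    by_cases hl : l = 0
    · rw [hl, homEval_eq_top, coeff_map, mul_eq_zero, pow_eq_zero_iff (by norm_num : (20:ℕ) ≠ 0)] at z4
      rw [hl, homEval_eq_top, coeff_map, mul_eq_zero, pow_eq_zero_iff (by norm_num : (12:ℕ) ≠ 0)] at zD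
      rcases hT with hT | hT <;> rw [hT] at hTq
      · exact hTq (z4.resolve_right hMq')
      · exact hTq (zD.resolve_right hMq')
    · have b4 : q4.natDegree ≤ 20 := by
        rw [← natDegree_map_eq_of_injective (RingHom.injective_int (Int.castRingHom ℚ)), hR4]
        exact (natDegree_C_mul_le _ _).trans d.deg4
      have bD : qD.natDegree ≤ 12 := by
        rw [← natDegree_map_eq_of_injective (RingHom.injective_int (Int.castRingHom ℚ)), hRD]
        exact (natDegree_C_mul_le _ _).trans d.degD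
      rw [homEval_eq_of_ne_zero (natDegree_map_le.trans b4) hl, mul_eq_zero] at z4
      rw [homEval_eq_of_ne_zero (natDegree_map_le.trans bD) hl, mul_eq_zero] at zD
      have h4' := z4.resolve_left (pow_ne_zero _ hl)
      have hD' := zD.resolve_left (pow_ne_zero _ hl)
      have := congrArg (fun r => (r.map φ).eval (φ M / l)) hbez
      simp only [Polynomial.map_add, Polynomial.map_mul, Polynomial.map_pow, Polynomial.map_natCast,
        eval_add, eval_mul, eval_pow, eval_natCast, h4', hD', mul_zero, add_zero] at this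
      push_cast at hRq
      exact hRq (pow_eq_zero_iff two_ne_zero |>.1 this.symm)

end Fermat.Agent.Switch
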