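/-
The Rubin--Silverberg family of curves with the same mod 5 representation as a given semistable
curve, specialised along an arithmetic progression of parameters so that every member is
semistable.
-/
import Fermat.Agent.Switch.Integral
import Fermat.Agent.Switch.Congruence
import Fermat.Prelude.Def_FLTPrelim_Modularity
import Fermat.Prelude.Def_FLTPrelim_ModularRep

set_option autoImplicit false

noncomputable section

namespace Fermat.Agent.Switch

open WeierstrassCurve Polynomial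

local notation "Qbar" => AlgebraicClosure ℚ

/-- The pencil polynomial along `(1 + X M : M)`. -/
def progPoly (m : ℕ) (p : ℚ[X]) (M : ℚ) : ℚ[X] := homEval m (p.map C) (1 + X * C M) (C M)

theorem eval_progPoly (m : ℕ) (p : ℚ[X]) (M x : ℚ) :
    (progPoly m p M).eval x = homEval m p (1 + x * M) M := by
  rw [progPoly, ← coe_evalRingHom, map_homEval, Polynomial.map_map,
    show (evalRingHom x).comp C = RingHom.id ℚ from RingHom.ext fun a => eval_C, Polynomial.map_id]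
  simp only [map_add, map_one, map_mul, coe_evalRingHom, eval_C, eval_X, AlgHom.coe_toRingHom, RingHom.coe_coe, aeval_C, aeval_X, eval_add, eval_mul, eval_one]

theorem aeval_progPoly (m : ℕ) (p : ℚ[X]) (M : ℚ) (z : Qbar) :
    aeval z (progPoly m p M) = homEval m (p.map (algebraMap ℚ Qbar))
      (1 + z * algebraMap ℚ Qbar M) (algebraMap ℚ Qbar M) := by
  rw [progPoly, ← AlgHom.coe_toRingHom, map_homEval, Polynomial.map_map,
    show ((aeval z : ℚ[X] →ₐ[ℚ] Qbar) : ℚ[X] →+* Qbar).comp C = algebraMap ℚ Qbar from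
      RingHom.ext fun a => aeval_C z a]
  simp only [map_add, map_one, map_mul, coe_evalRingHom, eval_C, eval_X, AlgHom.coe_toRingHom, RingHom.coe_coe, aeval_C, aeval_X, eval_add, eval_mul, eval_one]

theorem natDegree_lin (M : ℚ) : (1 + X * C M : ℚ[X]).natDegree ≤ 1 := by
  compute_degree

theorem natDegree_progPoly_le (m : ℕ) (p : ℚ[X]) (M : ℚ) :
    (progPoly m p M).natDegree ≤ m := by
  rw [progPoly, homEval]
  refine natDegree_sum_le_of_forall_le _ _ fun i _ => ?_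
  rw [coeff_map, ← C_pow, ← C_mul]
  refine (natDegree_C_mul_le _ _).trans (natDegree_pow_le.trans ?_)
  calc (m - i) * (1 + X * C M : ℚ[X]).natDegree ≤ (m - i) * 1 :=
        Nat.mul_le_mul_left _ (natDegree_lin M)
    _ ≤ m := by omega

theorem coeff_progPoly (m : ℕ) (p : ℚ[X]) (M : ℚ) :
    (progPoly m p M).coeff m = p.coeff 0 * M ^ m := by
  rw [progPoly, homEval, finsetSum_coeff, Finset.sum_eq_single 0]
  · rw [coeff_map, pow_zero, mul_one, Nat.sub_zero, coeff_C_mul]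
    have h := coeff_pow_of_natDegree_le (p := (1 + X * C M : ℚ[X])) (n := 1) (m := m) (natDegree_lin M)
    rw [mul_one] at h
    rw [h]
    simp [coeff_one]
  · intro i hi hne
    rw [coeff_map, ← C_pow, ← C_mul, coeff_C_mul, coeff_eq_zero_of_natDegree_lt (p := (1 + X * C M : ℚ[X]) ^ (m - i)), mul_zero]
    refine (natDegree_pow_le.trans (Nat.mul_le_mul_left _ (natDegree_lin M))).trans_lt ?_
    have := Finset.mem_range.1 hi
    omega
  · simp

/-- A polynomial family of semistable integral curves, congruent to `W` modulo 5 in the sense of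
traces of Frobenius, whose short-model coefficients `A`, `B` satisfy `4A³ + 27B² = k D⁵`, and with
the reduction and discriminant valuation of `W` at the primes dividing `6 m₀ Δ`. -/
theorem exists_switch_family_congruent (W : WeierstrassCurve ℤ) (hΔ : W.Δ ≠ 0) (hW : W.IsSemistableModel)
    (h5 : W.ModRepIsIrreducible 5) (m₀ : ℕ) (hm₀ : m₀ ≠ 0) :
    ∃ (A B D : Polynomial ℚ) (k : ℚ) (N : ℕ),
      A.natDegree ≤ 20 ∧ B.natDegree ≤ 30 ∧ D.natDegree = 12 ∧ k ≠ 0 ∧ IsCoprime A B ∧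
      4 * A ^ 3 + 27 * B ^ 2 = Polynomial.C k * D ^ 5 ∧
      ∀ n : ℕ, N ≤ n → ∃ W' : WeierstrassCurve ℤ, W'.Δ ≠ 0 ∧ W'.IsSemistableModel ∧
        A.eval (n : ℚ) = ((-27 * W'.c₄ : ℤ) : ℚ) ∧ B.eval (n : ℚ) = ((-54 * W'.c₆ : ℤ) : ℚ) ∧
        (∀ ℓ : ℕ, ℓ.Prime → W.IsGoodPrimeFor ℓ → W'.IsGoodPrimeFor ℓ → ℓ ≠ 5 →
          (5 : ℤ) ∣ (W'.apOfModel ℓ - W.apOfModel ℓ)) ∧
        ∀ q : ℕ, q.Prime → (q : ℤ) ∣ 6 * (m₀ : ℤ) * W.Δ →
          W'.reductionMod q = W.reductionMod q ∧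
            padicValInt q W'.Δ = padicValInt q W.Δ := by
  have hrel : (W.c₄ : ℚ) ^ 3 - (W.c₆ : ℚ) ^ 2 = 1728 * (W.Δ : ℚ) := by
    exact_mod_cast W.c_relation.symm
  have hne : (W.c₄ : ℚ) ^ 3 - (W.c₆ : ℚ) ^ 2 ≠ 0 := by
    rw [hrel]; exact mul_ne_zero (by norm_num) (by exact_mod_cast hΔ)
  obtain ⟨d⟩ := exists_pencilData hne
  obtain ⟨M, hM, hmem⟩ := exists_integral_member W hΔ hW d m₀ hm₀
  have hMQ : (M : ℚ) ≠ 0 := Nat.cast_ne_zero.2 hM
  set P := progPoly 20 d.P4 (M : ℚ) with hP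
  set Q := progPoly 30 d.P6 (M : ℚ) with hQ
  set D := progPoly 12 d.PD (M : ℚ) with hD
  have hDdeg : D.natDegree = 12 := by
    refine le_antisymm (natDegree_progPoly_le _ _ _) (le_natDegree_of_ne_zero ?_)
    rw [hD, coeff_progPoly, d.coeff_zeroD, one_mul]
    exact pow_ne_zero _ hMQ
  have hD0 : D ≠ 0 := fun h => by rw [h, natDegree_zero] at hDdeg; omega
  obtain ⟨N, hN⟩ : ∃ N : ℕ, ∀ n : ℕ, N ≤ n → D.eval (n : ℚ) ≠ 0 := by
    have hfin : {n : ℕ | D.eval (n : ℚ) = 0}.Finite :=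
      ((Polynomial.finite_setOfPred_isRoot hD0).preimage Nat.cast_injective.injOn)
    obtain ⟨B, hB⟩ := hfin.bddAbove
    exact ⟨B + 1, fun n hn h0 => absurd (hB h0) (by omega)⟩
  refine ⟨C (-27) * P, C (-54) * Q, D, -78732 * ((W.c₄ : ℚ) ^ 3 - (W.c₆ : ℚ) ^ 2), N,
    (natDegree_C_mul_le _ _).trans (natDegree_progPoly_le _ _ _),
    (natDegree_C_mul_le _ _).trans (natDegree_progPoly_le _ _ _), hDdeg,
    mul_ne_zero (by norm_num) hne, ?_, ?_, fun n hn => ?_⟩
  · rw [isCoprime_mul_unit_left_left (isUnit_C.2 (IsUnit.mk0 _ (by norm_num))),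
      isCoprime_mul_unit_left_right (isUnit_C.2 (IsUnit.mk0 _ (by norm_num)))]
    refine (@Polynomial.isCoprime_iff_aeval_ne_zero_of_isAlgClosed ℚ _ Qbar _ _ _ P Q).2 fun z => ?_
    rw [hP, hQ, aeval_progPoly, aeval_progPoly]
    exact d.not_c4_c6 (Or.inr ((_root_.map_ne_zero _).2 hMQ))
  · refine Polynomial.funext fun x => ?_
    simp only [eval_add, eval_mul, eval_pow, eval_C, eval_ofNat, hP, hQ, hD, eval_progPoly]
    linear_combination (-78732 : ℚ) * d.syzygy (1 + x * M) (M : ℚ)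
  · have hcast : ((1 + n * M : ℕ) : ℚ) = 1 + (n : ℚ) * (M : ℚ) := by push_cast; rfl
    have hl : ((1 + n * M : ℕ) : ℚ) ≠ 0 := Nat.cast_ne_zero.2 (by omega)
    obtain ⟨W', hΔ', hW', h4, h6, hred⟩ := hmem n (by
      have := hN n hn
      rwa [hD, eval_progPoly, ← hcast] at this)
    refine ⟨W', hΔ', hW', ?_, ?_, fun ℓ hℓ hg hg' hne5 =>
      dvd_apOfModel_sub_of_pencil W W' hΔ hΔ' h5 d hl h4 h6 hℓ hg hg' hne5, hred⟩
    · rw [eval_mul, eval_C, hP, eval_progPoly, ← hcast, ← h4]; push_cast; rfl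
    · rw [eval_mul, eval_C, hQ, eval_progPoly, ← hcast, ← h6]; push_cast; rfl

/-- A polynomial family of semistable integral curves, congruent to `W` modulo 5 in the sense of
traces of Frobenius, whose short-model coefficients `A`, `B` satisfy `4A³ + 27B² = k D⁵`. -/
theorem exists_switch_family (W : WeierstrassCurve ℤ) (hΔ : W.Δ ≠ 0) (hW : W.IsSemistableModel)
    (h5 : W.ModRepIsIrreducible 5) :
    ∃ (A B D : Polynomial ℚ) (k : ℚ) (N : ℕ),
      A.natDegree ≤ 20 ∧ B.natDegree ≤ 30 ∧ D.natDegree = 12 ∧ k ≠ 0 ∧ IsCoprime A B ∧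
      4 * A ^ 3 + 27 * B ^ 2 = Polynomial.C k * D ^ 5 ∧
      ∀ n : ℕ, N ≤ n → ∃ W' : WeierstrassCurve ℤ, W'.Δ ≠ 0 ∧ W'.IsSemistableModel ∧
        A.eval (n : ℚ) = ((-27 * W'.c₄ : ℤ) : ℚ) ∧ B.eval (n : ℚ) = ((-54 * W'.c₆ : ℤ) : ℚ) ∧
        ∀ ℓ : ℕ, ℓ.Prime → W.IsGoodPrimeFor ℓ → W'.IsGoodPrimeFor ℓ → ℓ ≠ 5 →
          (5 : ℤ) ∣ (W'.apOfModel ℓ - W.apOfModel ℓ) := by
  obtain ⟨A, B, D, k, N, hA, hB, hD, hk, hcop, hdisc, hfam⟩ :=
    exists_switch_family_congruent W hΔ hW h5 1 one_ne_zero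
  exact ⟨A, B, D, k, N, hA, hB, hD, hk, hcop, hdisc, fun n hn => by
    obtain ⟨W', h1, h2, h3, h4, h, -⟩ := hfam n hn
    exact ⟨W', h1, h2, h3, h4, h⟩⟩

end Fermat.Agent.Switch
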